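import Fermat.Agent.RelPic.Curve.Dedekind
import Mathlib.RingTheory.PicardGroup
import Mathlib.RingTheory.Localization.FractionRing
import Mathlib.RingTheory.DedekindDomain.Ideal.Lemmas

/-!
# The diagonal of a smooth affine curve is an invertible ideal
-/

set_option autoImplicit false
set_option linter.style.haveILetI false

noncomputable section

open scoped TensorProduct

namespace Fermat.Agent.RelPic.Curve

universe u

open Fermat.Agent.AbVar

/-- A locally principal ideal of a domain is an invertible module. -/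
theorem invertible_of_locally_principal {R : Type u} [CommRing R] [IsDomain R] (I : Ideal R)
    (h : ∀ M : Ideal R, M.IsMaximal → ∃ r ∉ M, ∃ f ∈ I, f ≠ 0 ∧ ∀ x ∈ I, f ∣ r * x) :
    Module.Invertible R I := by
  classical
  set Q := FractionRing R
  set J : Submodule R Q := Submodule.map (Algebra.linearMap R Q) I
  have hunit : J * (1 / J) = 1 := by
    refine le_antisymm Submodule.mul_one_div_le_one (Submodule.one_le.2 ?_)
    suffices ((J * (1 / J)).comap (Algebra.linearMap R Q) : Ideal R) = ⊤ by
      have h1 : (1 : R) ∈ ((J * (1 / J)).comap (Algebra.linearMap R Q) : Ideal R) :=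
        this ▸ Submodule.mem_top
      simpa using h1
    by_contra hne
    obtain ⟨M, hM, hle⟩ := Ideal.exists_le_maximal _ hne
    obtain ⟨r, hr, f, hf, hf0, hdiv⟩ := h M hM
    refine hr (hle ?_)
    show algebraMap R Q r ∈ J * (1 / J)
    have hf' : algebraMap R Q f ≠ 0 := IsFractionRing.to_map_ne_zero_of_mem_nonZeroDivisors
      (mem_nonZeroDivisors_of_ne_zero hf0)
    rw [show algebraMap R Q r = algebraMap R Q f * (algebraMap R Q r / algebraMap R Q f) by
      rw [mul_div_cancel₀ _ hf']]
    refine Submodule.mul_mem_mul ⟨f, hf, rfl⟩ (Submodule.mem_div_iff_forall_mul_mem.2 ?_)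
    rintro _ ⟨x, hx, rfl⟩
    obtain ⟨c, hc⟩ := hdiv x hx
    refine Submodule.mem_one.2 ⟨c, ?_⟩
    rw [Algebra.linearMap_apply, div_mul_eq_mul_div, eq_div_iff hf', ← map_mul, ← map_mul, hc,
      mul_comm]
  let U : (Submodule R Q)ˣ := ⟨J, 1 / J, hunit, by rw [mul_comm]; exact hunit⟩
  haveI : Module.Invertible R (U : Submodule R Q) :=
    Module.Invertible.left (Submodule.tensorInvEquiv U)
  exact Module.Invertible.congr (Submodule.equivMapOfInjective (Algebra.linearMap R Q)
    (IsFractionRing.injective R Q) I).symm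

variable {k : Type u} [Field k] [IsAlgClosed k] {A : Type u} [CommRing A] [IsDomain A]
  [Algebra k A] [Algebra.FiniteType k A]

/-- The diagonal ideal. -/
abbrev diag (k A : Type u) [CommRing k] [CommRing A] [Algebra k A] : Ideal (A ⊗[k] A) :=
  RingHom.ker (Algebra.TensorProduct.lmul' k : A ⊗[k] A →ₐ[k] A)

/-- The difference of the two images of an element. -/
abbrev delta (k : Type u) {A : Type u} [CommRing k] [CommRing A] [Algebra k A] (a : A) :
    A ⊗[k] A := a ⊗ₜ 1 - 1 ⊗ₜ a

omit [IsAlgClosed k] [IsDomain A] [Algebra.FiniteType k A] in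
theorem diag_le_span : diag k A ≤ Ideal.span (Set.range (delta k : A → A ⊗[k] A)) := by
  intro z hz
  have key : ∀ z : A ⊗[k] A,
      z - (Algebra.TensorProduct.lmul' k z) ⊗ₜ 1 ∈ Ideal.span (Set.range (delta k : A → A ⊗[k] A)) :=
    fun z => by
      induction z using TensorProduct.induction_on with
      | zero => simp
      | tmul a b =>
        rw [Algebra.TensorProduct.lmul'_apply_tmul,
          show a ⊗ₜ[k] b - (a * b) ⊗ₜ 1 = -((a ⊗ₜ 1) * delta k b) by
            simp only [delta, mul_sub, Algebra.TensorProduct.tmul_mul_tmul, one_mul, mul_one]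
            abel]
        exact neg_mem (Ideal.mul_mem_left _ _ (Ideal.subset_span ⟨b, rfl⟩))
      | add x y hx hy =>
        rw [map_add, TensorProduct.add_tmul, add_sub_add_comm]
        exact add_mem hx hy
  have := key z
  rwa [RingHom.mem_ker.1 hz, TensorProduct.zero_tmul, sub_zero] at this

/-- The diagonal is locally principal. -/
theorem exists_diag_principal (hA : IsDedekindDomain A) (hfield : ¬ IsField A)
    [IsDomain (A ⊗[k] A)] (M : Ideal (A ⊗[k] A)) (hM : M.IsMaximal) :
    ∃ r ∉ M, ∃ f ∈ diag k A, f ≠ 0 ∧ ∀ x ∈ diag k A, f ∣ r * x := by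
  classical
  haveI := hA
  set μ : A ⊗[k] A →ₐ[k] A := Algebra.TensorProduct.lmul' k
  have hμ : Function.Surjective μ := fun a => ⟨a ⊗ₜ 1, by simp [μ]⟩
  have hδ : ∀ a, delta k a ∈ diag k A := fun a => by simp [RingHom.mem_ker, delta]
  -- a uniformiser at the point
  by_cases hle : diag k A ≤ M
  · set m : Ideal A := M.map μ
    haveI hm : m.IsMaximal := Ideal.IsMaximal.map_of_surjective_of_ker_le hμ hle
    have hcm : m.comap μ = M := by
      rw [Ideal.comap_map_of_surjective μ hμ, sup_eq_left]
      exact hle
    have hm0 : m ≠ ⊥ := fun e => hfield (Ring.isField_iff_maximal_bot.2 (e ▸ hm))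
    obtain ⟨t, htm, ht2⟩ : ∃ t ∈ m, t ∉ m ^ 2 :=
      SetLike.exists_of_lt (Ideal.pow_right_strictAnti m hm0 hm.ne_top (by norm_num : 1 < 2)
        |>.trans_eq (pow_one m))
    have hsup : Ideal.span {t} ⊔ m ^ 2 = m := by
      have := Ideal.eq_prime_pow_of_succ_lt_of_le hm0
        (I := Ideal.span {t} ⊔ m ^ 2) (i := 1)
        (lt_of_le_of_ne (le_sup_right : m ^ (1 + 1) ≤ _) fun e => ht2 (e ▸
          (Ideal.mem_sup_left (Ideal.mem_span_singleton_self t))))
        (by
          rw [pow_one]
          exact sup_le ((Ideal.span_singleton_le_iff_mem _).2 htm)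
            (Ideal.pow_le_self two_ne_zero))
      rwa [pow_one] at this
    obtain ⟨φ, hφ⟩ := exists_point_of_isMaximal (K := k) m
    have hMa : ∀ a ∈ m, a ⊗ₜ[k] (1 : A) ∈ M ∧ (1 : A) ⊗ₜ[k] a ∈ M := fun a ha => by
      rw [← hcm]
      constructor <;> rw [Ideal.mem_comap] <;> simpa [μ] using ha
    set S : Ideal (A ⊗[k] A) := Ideal.span {delta k t} ⊔ M * diag k A
    have hm2 : ∀ a ∈ m ^ 2, delta k a ∈ S := fun a ha => by
      rw [sq] at ha
      induction ha using Submodule.mul_induction_on' with
      | mem_mul_mem x hx y hy =>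
        refine Ideal.mem_sup_right ?_
        rw [show delta k (x * y) = (x ⊗ₜ 1) * delta k y + (1 ⊗ₜ y) * delta k x by
          simp only [delta, mul_sub, Algebra.TensorProduct.tmul_mul_tmul, one_mul, mul_one]
          rw [mul_comm y x]
          abel]
        exact add_mem (Ideal.mul_mem_mul (hMa x hx).1 (hδ y))
          (Ideal.mul_mem_mul (hMa y hy).2 (hδ x))
      | add x _ y _ hx hy =>
        rw [show delta k (x + y) = delta k x + delta k y by
          simp only [delta, TensorProduct.add_tmul, TensorProduct.tmul_add]; abel]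
        exact add_mem hx hy
    have hgen : ∀ a, delta k a ∈ S := fun a => by
      have h0 : a - algebraMap k A (φ a) ∈ Ideal.span {t} ⊔ m ^ 2 := by
        rw [hsup, ← hφ, RingHom.mem_ker, map_sub, AlgHom.commutes]
        simp
      obtain ⟨_, hu, w, hw, e⟩ := Submodule.mem_sup.1 h0
      obtain ⟨b, rfl⟩ := Ideal.mem_span_singleton'.1 hu
      have e1 : a = algebraMap k A (φ a) + (b * t + w) := by rw [e]; ring
      have e2 : delta k (algebraMap k A (φ a)) = 0 := by
        simp [delta, Algebra.algebraMap_eq_smul_one, TensorProduct.smul_tmul]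
      have e3 : delta k (b * t) = (b ⊗ₜ 1) * delta k t + (1 ⊗ₜ t) * delta k b := by
        simp only [delta, mul_sub, Algebra.TensorProduct.tmul_mul_tmul, one_mul, mul_one]
        rw [mul_comm t b]
        abel
      rw [e1, show ∀ x y z : A, delta k (x + (y + z)) = delta k x + (delta k y + delta k z) from
        fun x y z => by simp only [delta, TensorProduct.add_tmul, TensorProduct.tmul_add]; abel,
        e2, zero_add, e3]
      exact add_mem (add_mem (Ideal.mem_sup_left (Ideal.mul_mem_left _ _
        (Ideal.mem_span_singleton_self _))) (Ideal.mem_sup_right (Ideal.mul_mem_mul (hMa t htm).2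
          (hδ b)))) (hm2 w hw)
    have hIle : diag k A ≤ S := diag_le_span.trans (Ideal.span_le.2 (by
      rintro _ ⟨a, rfl⟩; exact hgen a))
    set N : Submodule (A ⊗[k] A) (A ⊗[k] A ⧸ Ideal.span {delta k t}) :=
      Submodule.map (Submodule.mkQ _) (diag k A)
    haveI : Algebra.FiniteType k (A ⊗[k] A) :=
      Algebra.FiniteType.trans (S := A) inferInstance inferInstance
    haveI : IsNoetherianRing (A ⊗[k] A) := Algebra.FiniteType.isNoetherianRing k _
    obtain ⟨r, hr1, hr⟩ := Submodule.exists_sub_one_mem_and_smul_eq_zero_of_fg_of_le_smul M N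
      ((IsNoetherian.noetherian (diag k A)).map _) (by
        rintro _ ⟨x, hx, rfl⟩
        obtain ⟨u, hu, w, hw, rfl⟩ := Submodule.mem_sup.1 (hIle hx)
        rw [map_add, show Submodule.mkQ (Ideal.span {delta k t}) u = 0 from
          (Submodule.Quotient.mk_eq_zero _).2 hu, zero_add, ← smul_eq_mul] at *
        rw [show M • N = Submodule.map (Submodule.mkQ _) (M • diag k A) from
          (Submodule.map_smul'' _ _ _).symm]
        exact ⟨w, hw, rfl⟩)
    refine ⟨r, fun hrM => hM.ne_top ((Ideal.eq_top_iff_one _).2 ?_), delta k t, hδ t,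
      fun e => ?_, fun x hx => ?_⟩
    · simpa using sub_mem hrM hr1
    · -- the parameter is not constant
      obtain ⟨c, hc⟩ : ∃ c, algebraMap k A c = t := by
        have h1 := congrArg (Algebra.TensorProduct.map (AlgHom.id k A) φ) e
        rw [map_sub, map_zero, sub_eq_zero, Algebra.TensorProduct.map_tmul,
          Algebra.TensorProduct.map_tmul, map_one, AlgHom.id_apply, AlgHom.id_apply] at h1
        have h2 := congrArg (Algebra.TensorProduct.rid k A A) h1
        rw [Algebra.TensorProduct.rid_tmul, Algebra.TensorProduct.rid_tmul, one_smul] at h2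
        refine ⟨φ t, ?_⟩
        conv_rhs => rw [h2]
        rw [Algebra.smul_def, mul_one]
      have hc0 : c = 0 := by
        have : φ t = 0 := by rw [← RingHom.mem_ker, hφ]; exact htm
        rwa [← hc, AlgHom.commutes] at this
      exact ht2 (by rw [← hc, hc0, map_zero]; exact zero_mem _)
    · have := hr _ ⟨x, hx, rfl⟩
      rw [← map_smul, Submodule.mkQ_apply, Submodule.Quotient.mk_eq_zero, smul_eq_mul,
        Ideal.mem_span_singleton] at this
      exact this
  · obtain ⟨r, hrI, hrM⟩ := Set.not_subset.1 hle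
    exact ⟨r, hrM, r, hrI, fun e => hrM (e ▸ M.zero_mem), fun x _ => dvd_mul_right r x⟩

/-- The diagonal of a smooth affine curve is invertible. -/
theorem invertible_diag (hA : IsDedekindDomain A) (hfield : ¬ IsField A) :
    Module.Invertible (A ⊗[k] A) (diag k A) := by
  haveI : IsDomain (A ⊗[k] A) := isDomain_tensorProduct k A A
  exact invertible_of_locally_principal _ fun M hM => exists_diag_principal hA hfield M hM

end Fermat.Agent.RelPic.Curve
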