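import Fermat.Agent.RelPic.GeomDefs
import Fermat.Agent.RelPic.Curve.Diagonal
import Mathlib.RingTheory.DedekindDomain.Basic

/-!
# The regularity properties of a two-chart model and geometric integrality
-/

set_option autoImplicit false
set_option linter.style.haveILetI false

noncomputable section

universe u

open CategoryTheory CategoryTheory.Limits AlgebraicGeometry Polynomial NeronModelInfra
open scoped TensorProduct

namespace Fermat.Agent.RelPic.Curve

open Fermat.Agent.AbVar

variable {k : Type u} [Field k] [IsAlgClosed k] {A : Type u} [CommRing A] [Algebra k A]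

omit [IsAlgClosed k] in
/-- Local smoothness of dimension one passes to a base change. -/
theorem locSmoothOne_baseChange (h : LocSmoothOne k A) (K : Type u) [Field K] [Algebra k K] :
    LocSmoothOne K (K ⊗[k] A) := by
  intro m hm
  let i : A →ₐ[k] K ⊗[k] A := Algebra.TensorProduct.includeRight
  obtain ⟨n, hn, hle⟩ := Ideal.exists_le_maximal (m.comap i) (hm.isPrime.comap i).ne_top
  obtain ⟨g, hg, hs⟩ := h n hn
  refine ⟨i g, fun h' => hg (hle h'), ?_⟩
  haveI := hs
  haveI : Algebra.IsStandardSmoothOfRelativeDimension 1 K (K ⊗[k] Localization.Away g) :=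
    inferInstance
  let F₀ : K ⊗[k] A →ₐ[K] K ⊗[k] Localization.Away g :=
    Algebra.TensorProduct.map (AlgHom.id K K) (IsScalarTower.toAlgHom k A (Localization.Away g))
  let F : Localization.Away (i g) →ₐ[K] K ⊗[k] Localization.Away g :=
    IsLocalization.liftAlgHom (M := Submonoid.powers (i g)) (f := F₀) fun y => by
      obtain ⟨_, j, rfl⟩ := y
      rw [map_pow]
      refine IsUnit.pow j ?_
      exact (IsLocalization.Away.algebraMap_isUnit g).map
        (Algebra.TensorProduct.includeRight : Localization.Away g →ₐ[k] K ⊗[k] Localization.Away g)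
  let G₀ : A →ₐ[k] Localization.Away (i g) :=
    ((IsScalarTower.toAlgHom k (K ⊗[k] A) (Localization.Away (i g)))).comp i
  let G₁ : Localization.Away g →ₐ[k] Localization.Away (i g) :=
    IsLocalization.liftAlgHom (M := Submonoid.powers g) (f := G₀) fun y => by
      obtain ⟨_, j, rfl⟩ := y
      rw [map_pow]
      exact IsUnit.pow j (IsLocalization.Away.algebraMap_isUnit (i g))
  let G : K ⊗[k] Localization.Away g →ₐ[K] Localization.Away (i g) :=
    Algebra.TensorProduct.lift (Algebra.ofId K _) G₁ fun _ _ => Commute.all _ _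
  have hF : ∀ a, F (algebraMap (K ⊗[k] A) _ a) = F₀ a := fun a => IsLocalization.lift_eq _ a
  have hG₁ : ∀ a, G₁ (algebraMap A _ a) = algebraMap (K ⊗[k] A) _ (i a) :=
    fun a => IsLocalization.lift_eq _ a
  have h1 : F.comp G = AlgHom.id K _ := by
    refine Algebra.TensorProduct.ext' fun a b => ?_
    obtain ⟨⟨r, s⟩, hrs⟩ := IsLocalization.surj (Submonoid.powers g) b
    have key : ∀ r : A, F (G (1 ⊗ₜ algebraMap A _ r)) = 1 ⊗ₜ algebraMap A _ r := fun r => by
      simp only [G, Algebra.TensorProduct.lift_tmul, map_one, one_mul, hG₁, hF]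
      simp [F₀, i]
    have hb : F (G ((1 : K) ⊗ₜ b)) = 1 ⊗ₜ b := by
      refine (((IsLocalization.map_units (Localization.Away g) s).map
        (Algebra.TensorProduct.includeRight :
          Localization.Away g →ₐ[k] K ⊗[k] Localization.Away g))).mul_left_injective ?_
      show F (G (1 ⊗ₜ b)) * (1 : K) ⊗ₜ algebraMap A _ (s : A) =
        (1 : K) ⊗ₜ b * (1 : K) ⊗ₜ algebraMap A _ (s : A)
      conv_lhs => rw [← key s, ← map_mul, ← map_mul]
      simp only [Algebra.TensorProduct.tmul_mul_tmul, mul_one, hrs, key]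
    have e : a ⊗ₜ[k] b = a • ((1 : K) ⊗ₜ b) := by
      rw [TensorProduct.smul_tmul', smul_eq_mul, mul_one]
    rw [AlgHom.comp_apply, AlgHom.id_apply, e, map_smul, map_smul, hb]
  have h2 : G.comp F = AlgHom.id K _ := by
    refine IsLocalization.algHom_ext (Submonoid.powers (i g)) ?_
    refine Algebra.TensorProduct.ext' fun a b => ?_
    show G (F (algebraMap (K ⊗[k] A) _ (a ⊗ₜ b))) = algebraMap (K ⊗[k] A) _ (a ⊗ₜ b)
    rw [hF]
    simp only [F₀, Algebra.TensorProduct.map_tmul, G, Algebra.TensorProduct.lift_tmul,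
      AlgHom.id_apply, IsScalarTower.coe_toAlgHom', hG₁]
    have e : a ⊗ₜ[k] b = algebraMap K (K ⊗[k] A) a * i b := by
      simp [i, Algebra.TensorProduct.algebraMap_apply]
    rw [e, map_mul, ← IsScalarTower.algebraMap_apply, Algebra.ofId_apply]
  exact Algebra.IsStandardSmoothOfRelativeDimension.of_algEquiv 1 (AlgEquiv.ofAlgHom G F h2 h1)

/-- Dedekind domains are stable under isomorphism. -/
theorem isDedekindDomain_of_equiv {R S : Type u} [CommRing R] [CommRing S] (e : R ≃+* S)
    [IsDedekindDomain R] : IsDedekindDomain S := by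
  letI := e.toRingHom.toAlgebra
  haveI : IsLocalization (⊥ : Submonoid R) S :=
    IsLocalization.of_le_isUnit_of_bijective (by
      rintro _ ⟨y, hy, rfl⟩
      rw [SetLike.mem_coe, Submonoid.mem_bot] at hy
      rw [hy, map_one]
      exact isUnit_one) e.bijective
  haveI : IsDomain S := e.symm.toMulEquiv.isDomain
  exact IsLocalization.isDedekindDomain R (bot_le : (⊥ : Submonoid R) ≤ nonZeroDivisors R) S

section Model

variable (M : Model k)

omit [IsAlgClosed k] in
/-- A field among the charts would make the coordinate constant. -/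
theorem not_isField_chart (hne : ∀ r, algebraMap k M.F r ≠ M.x) :
    ¬ IsField M.Ap ∧ ¬ IsField M.Am := by
  have key : M.x⁻¹ ∈ M.Ap → M.x ∈ M.Am → False := fun _ h => by
    have : M.x ∈ (⊥ : Subalgebra k M.F) := M.inf_eq.le ⟨M.x_mem, h⟩
    obtain ⟨r, hr⟩ := Algebra.mem_bot.1 this
    exact hne r hr
  refine ⟨fun h => ?_, fun h => ?_⟩
  · obtain ⟨y, hy⟩ := h.mul_inv_cancel (a := ⟨M.x, M.x_mem⟩)
      fun e => M.x_ne (congrArg Subtype.val e)
    have h1 : M.x⁻¹ ∈ M.Ap := by
      rw [show M.x⁻¹ = (y : M.F) from inv_eq_of_mul_eq_one_right (congrArg Subtype.val hy)]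
      exact y.2
    have h2 : M.x⁻¹ ∈ (⊥ : Subalgebra k M.F) := M.inf_eq.le ⟨h1, M.x_inv_mem⟩
    obtain ⟨r, hr⟩ := Algebra.mem_bot.1 h2
    exact hne r⁻¹ (by rw [map_inv₀, hr, inv_inv])
  · obtain ⟨y, hy⟩ := h.mul_inv_cancel (a := ⟨M.x⁻¹, M.x_inv_mem⟩)
      fun e => inv_ne_zero M.x_ne (congrArg Subtype.val e)
    have h1 : M.x ∈ M.Am := by
      rw [show M.x = (y : M.F) from (inv_inv M.x).symm.trans
        (inv_eq_of_mul_eq_one_right (congrArg Subtype.val hy))]
      exact y.2
    have h2 : M.x ∈ (⊥ : Subalgebra k M.F) := M.inf_eq.le ⟨M.x_mem, h1⟩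
    obtain ⟨r, hr⟩ := Algebra.mem_bot.1 h2
    exact hne r hr

omit [IsAlgClosed k] in
theorem x_ne_algebraMap (r : k) : algebraMap k M.F r ≠ M.x := by
  intro h
  obtain ⟨b, hb⟩ := M.free_p
  let f : Fin M.d → k[X] := fun i => if i = ⟨0, M.d_pos⟩ then X - Polynomial.C r else 0
  have hz : aeval (⟨M.x, M.x_mem⟩ : M.Ap) (X - Polynomial.C r) = 0 := by
    refine Subtype.ext ?_
    rw [map_sub, aeval_X, aeval_C]
    show M.x - algebraMap k M.F r = 0
    rw [h, sub_self]
  have h1 : f = 0 := hb.1 (by
    show ∑ i, aeval _ (f i) * b i = ∑ i, aeval _ ((0 : Fin M.d → k[X]) i) * b i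
    refine Finset.sum_congr rfl fun i _ => ?_
    simp only [f, Pi.zero_apply]
    split_ifs
    · rw [hz, map_zero]
    · rfl)
  have := congrFun h1 ⟨0, M.d_pos⟩
  simp only [f, Pi.zero_apply, if_true] at this
  exact X_sub_C_ne_zero r this

end Model

variable {C : Scheme.{u}} {c : C ⟶ Spec (CommRingCat.of k)}

omit [IsAlgClosed k] in
theorem finiteType_of_immersion [IsProper c] (j : Spec (CommRingCat.of A) ⟶ C) [IsOpenImmersion j]
    (hj : j ≫ c = str k A) : Algebra.FiniteType k A := by
  have h : LocallyOfFiniteType (str k A) := hj ▸ inferInstance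
  rw [str, HasRingHomProperty.Spec_iff (P := @LocallyOfFiniteType)] at h
  exact RingHom.finiteType_algebraMap.1 h

omit [IsAlgClosed k] in
theorem locSmoothOne_of_immersion [SmoothOfRelativeDimension 1 c]
    (j : Spec (CommRingCat.of A) ⟶ C) [IsOpenImmersion j] (hj : j ≫ c = str k A) :
    LocSmoothOne k A := by
  have h0 : SmoothOfRelativeDimension (0 + 1) (j ≫ c) := inferInstance
  rw [hj, zero_add, str, HasRingHomProperty.Spec_iff (P := @SmoothOfRelativeDimension 1)] at h0
  intro m hm
  obtain ⟨s, hs, hP⟩ := h0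
  obtain ⟨g, hgs, hg⟩ := Set.not_subset.1 fun h : s ⊆ (m : Set A) =>
    hm.ne_top (top_le_iff.1 (hs ▸ Ideal.span_le.2 h))
  refine ⟨g, hg, ?_⟩
  have h := hP g hgs
  rw [← RingHom.isStandardSmoothOfRelativeDimension_algebraMap]
  exact h

/-- The functions on a chart over an extension of the base. -/
theorem dedekind_chart [IsProper c] [SmoothOfRelativeDimension 1 c] {F : Type u} [Field F]
    [Algebra k F] (P : Subalgebra k F) (A₀ : Subalgebra k F) (hle : P ≤ A₀)
    (j : Spec (CommRingCat.of P) ⟶ C) [IsOpenImmersion j] (hj : j ≫ c = str k P)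
    (K : Type u) [Field K] [Algebra k K] [IsAlgClosed K] :
    IsDedekindDomain (Algebra.TensorProduct.map (AlgHom.id K K) (Subalgebra.inclusion hle)).range := by
  haveI : IsDomain (K ⊗[k] P) := isDomain_tensorProduct k K P
  haveI := finiteType_of_immersion j hj
  haveI : IsDedekindDomain (K ⊗[k] P) := isDedekindDomain_of_locSmoothOne
    (locSmoothOne_baseChange (locSmoothOne_of_immersion j hj) K)
  have hinj : Function.Injective
      (Algebra.TensorProduct.map (AlgHom.id K K) (Subalgebra.inclusion hle)) :=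
    Module.Flat.lTensor_preserves_injective_linearMap (M := K)
      (Subalgebra.inclusion hle).toLinearMap (Subalgebra.inclusion_injective hle)
  exact isDedekindDomain_of_equiv (AlgEquiv.ofInjective _ hinj).toRingEquiv

/-- The model of a smooth proper curve is regular. -/
theorem regular_geomModel [IsProper c] [SmoothOfRelativeDimension 1 c]
    {ε : SchemeHomOver (𝟙 (Spec (CommRingCat.of k))) c} (G : GeomModel c ε) :
    G.model.Regular := by
  have hne := x_ne_algebraMap G.model
  obtain ⟨hp, hm⟩ := not_isField_chart G.model hne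
  haveI := finiteType_of_immersion G.ιp G.ιp_c
  haveI := finiteType_of_immersion G.ιm G.ιm_c
  exact
    { dedekind_p := fun K => dedekind_chart _ _ G.model.Ap_le G.ιp G.ιp_c K
      dedekind_m := fun K => dedekind_chart _ _ G.model.Am_le G.ιm G.ιm_c K
      diag_p := invertible_diag
        (isDedekindDomain_of_locSmoothOne (locSmoothOne_of_immersion G.ιp G.ιp_c)) hp
      diag_m := invertible_diag
        (isDedekindDomain_of_locSmoothOne (locSmoothOne_of_immersion G.ιm G.ιm_c)) hm
      finiteType_p := inferInstance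
      finiteType_m := inferInstance }

/-- A scheme covered by two integral opens that meet is integral. -/
theorem isIntegral_of_two_opens {Z X Y : Scheme.{u}} (f : X ⟶ Z) (g : Y ⟶ Z) [IsOpenImmersion f]
    [IsOpenImmersion g] [IsIntegral X] [IsIntegral Y]
    (hcover : Set.range f ∪ Set.range g = Set.univ)
    (hmeet : (Set.range f ∩ Set.range g).Nonempty) : IsIntegral Z := by
  haveI : ∀ z, _root_.IsReduced (Z.presheaf.stalk z) := fun z => by
    rcases (hcover.ge (Set.mem_univ z) : z ∈ Set.range f ∪ Set.range g) with ⟨a, rfl⟩ | ⟨a, rfl⟩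
    · exact isReduced_of_injective (f.stalkMap a).hom
        (ConcreteCategory.bijective_of_isIso (f.stalkMap a)).injective
    · exact isReduced_of_injective (g.stalkMap a).hom
        (ConcreteCategory.bijective_of_isIso (g.stalkMap a)).injective
  haveI : IsReduced Z := isReduced_of_isReduced_stalk Z
  have hf : IsPreirreducible (Set.range f) := by
    rw [← Set.image_univ]
    exact PreirreducibleSpace.isPreirreducible_univ.image f f.continuous.continuousOn
  have hg : IsPreirreducible (Set.range g) := by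
    rw [← Set.image_univ]
    exact PreirreducibleSpace.isPreirreducible_univ.image g g.continuous.continuousOn
  have hfo : IsOpen (Set.range f) := f.opensRange.isOpen
  have hgo : IsOpen (Set.range g) := g.opensRange.isOpen
  -- every nonempty open meets the first chart
  have key : ∀ O : Set Z, IsOpen O → O.Nonempty → (Set.range f ∩ O).Nonempty := fun O hO ⟨z, hz⟩ => by
    rcases (hcover.ge (Set.mem_univ z) : z ∈ Set.range f ∪ Set.range g) with h | h
    · exact ⟨z, h, hz⟩
    · obtain ⟨w, -, hw1, hw2⟩ := hg (Set.range f) O hfo hO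
        (by rwa [Set.inter_comm]) ⟨z, h, hz⟩
      exact ⟨w, hw1, hw2⟩
  haveI : PreirreducibleSpace Z := ⟨fun O O' hO hO' hne hne' => by
    rw [Set.univ_inter] at hne hne' ⊢
    obtain ⟨w, -, hw⟩ := hf O O' hO hO' (key O hO hne) (key O' hO' hne')
    exact ⟨w, hw⟩⟩
  haveI : IrreducibleSpace Z := { toNonempty := ⟨hmeet.some⟩ }
  exact isIntegral_of_irreducibleSpace_of_isReduced Z

/-- A curve with a two-chart model is geometrically integral. -/
theorem geometricallyIntegral {ε : SchemeHomOver (𝟙 (Spec (CommRingCat.of k))) c}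
    (G : GeomModel c ε) : GeometricallyIntegral c := by
  refine ⟨geometrically_iff_of_commRing.2 fun K _ _ Z fst snd h => ?_⟩
  have part : ∀ (P : Subalgebra k G.model.F) (j : Spec (CommRingCat.of P) ⟶ C) [IsOpenImmersion j],
      j ≫ c = str k P → ∃ (X : Scheme.{u}) (f : X ⟶ Z) (_ : IsOpenImmersion f) (_ : IsIntegral X),
        Set.range f = fst ⁻¹' Set.range j := by
    intro P j _ hj
    haveI : IsDomain (P ⊗[k] K) := isDomain_tensorProduct k P K
    have hp := (IsPullback.of_hasPullback j fst).flip
    have h' : IsPullback (pullback.fst j fst) (pullback.snd j fst ≫ snd) (str k P)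
        (Spec.map (CommRingCat.ofHom (algebraMap k K))) :=
      hj ▸ (IsPullback.of_hasPullback j fst).paste_vert h
    haveI : IsIntegral (pullback j fst) :=
      IsIntegral.of_isIso (h'.isoPullback ≪≫ pullbackSpecIso k P K).inv
    refine ⟨_, pullback.snd j fst, inferInstance, inferInstance, ?_⟩
    exact IsOpenImmersion.range_pullbackSnd j fst
  obtain ⟨Xp, fp, _, _, hrp⟩ := part _ G.ιp G.ιp_c
  obtain ⟨Xm, fm, _, _, hrm⟩ := part _ G.ιm G.ιm_c
  obtain ⟨X₀, f₀, _, _, hr₀⟩ := part _ G.ι₀ G.ι₀_c
  refine isIntegral_of_two_opens fp fm ?_ ?_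
  · rw [hrp, hrm, ← Set.preimage_union, ← Scheme.Hom.coe_opensRange, ← Scheme.Hom.coe_opensRange,
      ← TopologicalSpace.Opens.coe_sup, G.cover, TopologicalSpace.Opens.coe_top, Set.preimage_univ]
  · rw [hrp, hrm, ← Set.preimage_inter, ← Scheme.Hom.coe_opensRange, ← Scheme.Hom.coe_opensRange,
      ← TopologicalSpace.Opens.coe_inf, G.inter, Scheme.Hom.coe_opensRange, ← hr₀]
    exact Set.range_nonempty _

end Fermat.Agent.RelPic.Curve
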