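import Fermat.Agent.RelPic.Curve.Points

/-!
# The regular locus of a nonconstant function is affine and finite over the line

The graph of the function over its regular locus is a closed subscheme of `C × 𝔸¹`, so the induced
map to the line is proper with finite fibres, hence finite.
-/

set_option autoImplicit false
set_option linter.style.haveILetI false

noncomputable section

universe u

open CategoryTheory CategoryTheory.Limits AlgebraicGeometry TopologicalSpace Opposite Polynomial

namespace Fermat.Agent.RelPic.Curve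

variable {k : Type u} [Field k] {C : Scheme.{u}} [IsIntegral C] (c : C ⟶ Spec (CommRingCat.of k))

theorem regularAt_generic (f : FunField c) : RegularAt c f (genericPoint C) := by
  obtain ⟨W, hW, t, ht⟩ :=
    C.presheaf.exists_germ_eq (x := genericPoint C) (f : C.presheaf.stalk (genericPoint C))
  exact ⟨W, hW, t, ht⟩

/-- The locus where a function is regular. -/
def regOpen (f : FunField c) : C.Opens where
  carrier := {P | RegularAt c f P}
  is_open' := isOpen_iff_forall_mem_open.2 fun _ ⟨W, hP, h⟩ =>
    ⟨W, fun _ hQ => ⟨W, hQ, h⟩, W.isOpen, hP⟩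

theorem generic_mem_regOpen (f : FunField c) : genericPoint C ∈ regOpen c f :=
  regularAt_generic c f

theorem mem_sec_regOpen (f : FunField c) : f ∈ sec c (regOpen c f) (generic_mem_regOpen c f) :=
  (mem_sec_iff c).2 fun _ hP => hP

/-- The function, as a section over its regular locus. -/
def coordSection (f : FunField c) : Γ(C, regOpen c f) := (mem_sec_regOpen c f).choose

theorem toFun_coordSection (f : FunField c) :
    toFun c (regOpen c f) (generic_mem_regOpen c f) (coordSection c f) = f :=
  (mem_sec_regOpen c f).choose_spec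

/-- The value in the function field of a germ. -/
def stalkVal (Q : C) : C.presheaf.stalk Q →+* FunField c :=
  algebraMap (C.presheaf.stalk Q) C.functionField

variable [SmoothOfRelativeDimension 1 c] [IsAlgClosed k]

/-- Around every point there is an affine open whose trace on the regular locus is affine, with
functions generated by those of the open and the function. -/
theorem exists_local (f : FunField c) (hf : f ≠ 0) (P : C) :
    ∃ (W : C.Opens) (_ : IsAffineOpen W) (hP : P ∈ W), IsAffineOpen (regOpen c f ⊓ W) ∧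
      ∀ t ∈ sec c (regOpen c f ⊓ W) ⟨generic_mem_regOpen c f, generic_mem hP⟩,
        ∃ n : ℕ, ∃ b ∈ sec c W (generic_mem hP), t = b * f ^ n := by
  rcases regularAt_or_inv c f P with h | h
  · obtain ⟨_, ⟨W, hW, rfl⟩, hPW, hle⟩ :=
      C.isBasis_affineOpens.exists_subset_of_mem_open (h : P ∈ regOpen c f) (regOpen c f).isOpen
    have e : regOpen c f ⊓ W = W := inf_eq_right.2 hle
    refine ⟨W, hW, hPW, e.symm ▸ hW, fun t ht => ⟨0, t, ?_, by rw [pow_zero, mul_one]⟩⟩
    exact sec_anti c e.ge _ ht
  · obtain ⟨W', hPW', y', hy'⟩ := h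
    obtain ⟨_, ⟨W, hW, rfl⟩, hPW, hle⟩ :=
      C.isBasis_affineOpens.exists_subset_of_mem_open hPW' W'.isOpen
    set y := C.presheaf.map (homOfLE (hle : W ≤ W')).op y'
    have hy : toFun c W (generic_mem hPW) y = f⁻¹ := (toFun_map c _ _ _).trans hy'
    have e : C.basicOpen y = regOpen c f ⊓ W := by
      ext Q
      refine ⟨fun hQ => ⟨?_, C.basicOpen_le y hQ⟩, fun ⟨hQ, hQW⟩ => ?_⟩
      · obtain ⟨z, hz⟩ := ((C.mem_basicOpen y Q (C.basicOpen_le y hQ)).1 hQ).exists_right_inv
        refine (regularAt_iff_stalk c).2 ⟨z, ?_⟩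
        have h1 := congrArg (algebraMap (C.presheaf.stalk Q) C.functionField) hz
        haveI : Nonempty W := ⟨⟨_, hPW⟩⟩
        rw [map_mul, map_one, Scheme.algebraMap_germ_eq_germToFunctionField] at h1
        have h2 : f⁻¹ * stalkVal c Q z = 1 := by
          rw [← hy]
          exact h1
        exact ((inv_mul_eq_one₀ hf).1 h2).symm
      · show Q ∈ C.basicOpen y
        rw [C.mem_basicOpen y Q hQW]
        obtain ⟨z, hz⟩ := (regularAt_iff_stalk c).1 hQ
        refine IsUnit.of_mul_eq_one z (IsFractionRing.injective (C.presheaf.stalk Q)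
          C.functionField ?_)
        haveI : Nonempty W := ⟨⟨_, hPW⟩⟩
        rw [map_mul, map_one, Scheme.algebraMap_germ_eq_germToFunctionField]
        have hz' : stalkVal c Q z = f := hz
        have h3 : toFun c W (generic_mem hPW) y * stalkVal c Q z = 1 := by
          rw [hy, hz', inv_mul_cancel₀ hf]
        exact h3
    refine ⟨W, hW, hPW, e ▸ hW.basicOpen y, fun t ht => ?_⟩
    have hηB : genericPoint C ∈ C.basicOpen y := e.symm ▸ ⟨generic_mem_regOpen c f, generic_mem hPW⟩
    obtain ⟨s, hs⟩ := sec_anti c e.le hηB ht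
    letI := (C.presheaf.map (homOfLE (C.basicOpen_le y)).op).hom.toAlgebra
    haveI := hW.isLocalization_basicOpen y
    obtain ⟨⟨b, _, n, rfl⟩, hb⟩ := IsLocalization.surj (Submonoid.powers y) s
    refine ⟨n, toFun c W (generic_mem hPW) b, ⟨b, rfl⟩, ?_⟩
    have h1 := congrArg (toFun c _ hηB) hb
    rw [map_mul, map_pow, map_pow, hs, RingHom.algebraMap_toAlgebra, toFun_map, toFun_map, hy,
      inv_pow] at h1
    exact (mul_inv_eq_iff_eq_mul₀ (pow_ne_zero _ hf)).1 h1

variable (f : FunField c)

/-- The ring map defining the coordinate. -/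
def coordHom : k[X] →+* Γ(C, regOpen c f) :=
  Polynomial.eval₂RingHom (kGamma c _) (coordSection c f)

omit [SmoothOfRelativeDimension 1 c] [IsAlgClosed k] in
theorem toFun_coordHom (p : k[X]) :
    toFun c (regOpen c f) (generic_mem_regOpen c f) (coordHom c f p) = Polynomial.aeval f p := by
  rw [coordHom, coe_eval₂RingHom, hom_eval₂, toFun_coordSection, Polynomial.aeval_def]
  congr 1
  ext r
  exact toFun_kGamma c _ _ r

/-- The coordinate as a morphism to the line. -/
def coordMap : (regOpen c f).toScheme ⟶ Spec (CommRingCat.of k[X]) :=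
  (regOpen c f).toSpecΓ ≫ Spec.map (CommRingCat.ofHom (coordHom c f))

omit [SmoothOfRelativeDimension 1 c] [IsAlgClosed k] in
theorem coordMap_str : coordMap c f ≫ str k k[X] = (regOpen c f).ι ≫ c := by
  have e : CommRingCat.ofHom (algebraMap k k[X]) ≫ CommRingCat.ofHom (coordHom c f) =
      (Scheme.ΓSpecIso (CommRingCat.of k)).inv ≫ c.appTop ≫
        C.presheaf.map (homOfLE (le_top : regOpen c f ≤ ⊤)).op := by
    ext r
    show coordHom c f (Polynomial.C r) = kGamma c _ r
    rw [coordHom, coe_eval₂RingHom, eval₂_C]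
  rw [coordMap, str, Category.assoc, ← Spec.map_comp, e, Spec.map_comp, Spec.map_comp,
    Category.assoc, Scheme.Opens.toSpecΓ_SpecMap_presheaf_map_top_assoc,
    ← Scheme.toSpecΓ_naturality_assoc, toSpecΓ_SpecMap_ΓSpecIso_inv, Category.comp_id]

omit [SmoothOfRelativeDimension 1 c] [IsAlgClosed k] in
theorem coordMap_appTop (p : k[X]) :
    (coordMap c f).appTop ((Scheme.ΓSpecIso (CommRingCat.of k[X])).inv p) =
      (regOpen c f).topIso.inv (coordHom c f p) := by
  have h : (Scheme.ΓSpecIso (CommRingCat.of k[X])).inv ≫ (coordMap c f).appTop =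
      CommRingCat.ofHom (coordHom c f) ≫ (regOpen c f).topIso.inv := by
    rw [coordMap, Scheme.Hom.comp_appTop, ← Category.assoc, ← Scheme.ΓSpecIso_inv_naturality,
      Category.assoc, Scheme.Opens.toSpecΓ_appTop, Iso.inv_hom_id_assoc]
  exact congrArg (fun φ => φ p) h

/-- The graph of the function. -/
def graph : (regOpen c f).toScheme ⟶ pullback c (str k k[X]) :=
  pullback.lift (regOpen c f).ι (coordMap c f) (coordMap_str c f).symm

theorem appLE_congr_hom {X Y : Scheme.{u}} {g h : X ⟶ Y} (e : g = h) (U : Y.Opens) (V : X.Opens)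
    (e₁ : V ≤ g ⁻¹ᵁ U) : g.appLE U V e₁ = h.appLE U V (e ▸ e₁) := by
  subst e; rfl

include f in
theorem isClosedImmersion_graph (hf : f ≠ 0) : IsClosedImmersion (graph c f) := by
  have hloc := exists_local c f hf
  choose W hW hPW hUW hgen using hloc
  set π := pullback.fst c (str k k[X])
  haveI : IsAffineHom π :=
    MorphismProperty.of_isPullback (P := @IsAffineHom) (IsPullback.of_hasPullback c (str k k[X])).flip
      inferInstance
  refine (IsZariskiLocalAtTarget.iff_of_iSup_eq_top (fun P : C => π ⁻¹ᵁ W P)
    (eq_top_iff.2 fun z _ => Opens.mem_iSup.2 ⟨π z, hPW (π z)⟩)).2 fun P => ?_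
  set V := π ⁻¹ᵁ W P
  have hV : IsAffineOpen V := (hW P).preimage π
  have hpre : graph c f ⁻¹ᵁ V = (regOpen c f).ι ⁻¹ᵁ W P := by
    show graph c f ⁻¹ᵁ π ⁻¹ᵁ W P = _
    rw [← Scheme.Hom.comp_preimage, graph, pullback.lift_fst]
  set Z := graph c f ⁻¹ᵁ V
  have himage : (regOpen c f).ι ''ᵁ Z = regOpen c f ⊓ W P := by
    rw [hpre, Scheme.Hom.image_preimage_eq_opensRange_inf, Scheme.Opens.opensRange_ι]
  have hZ : IsAffineOpen Z := by
    rw [← (regOpen c f).ι.isAffineOpen_iff_of_isOpenImmersion, himage]
    exact hUW P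
  haveI : IsAffine V.toScheme := hV
  haveI : IsAffine (Scheme.Opens.toScheme Z) := hZ
  have hsurj : ∀ V' : (pullback c (str k k[X])).Opens, V' = V →
      Function.Surjective ((graph c f).app V') := by
    rintro _ rfl
    intro t
    have hηW : genericPoint C ∈ W P := generic_mem (hPW P)
    have hη : genericPoint C ∈ (regOpen c f).ι ''ᵁ Z := himage ▸ ⟨generic_mem_regOpen c f, hηW⟩
    let ev : Γ((regOpen c f).toScheme, Z) →+* FunField c := toFun c ((regOpen c f).ι ''ᵁ Z) hη
    have hinj : Function.Injective ev := toFun_injective c _ hη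
    obtain ⟨n, _, ⟨b, rfl⟩, hb⟩ := hgen P (ev t) (sec_anti c himage.ge _ ⟨t, rfl⟩)
    have htop : V ≤ pullback.snd c (str k k[X]) ⁻¹ᵁ ⊤ := le_top.trans_eq (Scheme.Hom.preimage_top _).symm
    -- the two kinds of generators
    have hfst : ev ((graph c f).app V (π.appLE (W P) V le_rfl b)) = toFun c (W P) hηW b := by
      have e1 : π.appLE (W P) V le_rfl ≫ (graph c f).app V = (regOpen c f).ι.appLE (W P) Z hpre.le := by
        rw [Scheme.Hom.app_eq_appLE, Scheme.Hom.appLE_comp_appLE]
        exact appLE_congr_hom (pullback.lift_fst _ _ _) _ _ _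
      rw [← CommRingCat.comp_apply, e1, Scheme.Opens.ι_appLE]
      exact toFun_map c _ hη b
    have hsnd : ev ((graph c f).app V ((pullback.snd c (str k k[X])).appLE ⊤ V htop
        ((Scheme.ΓSpecIso (CommRingCat.of k[X])).inv X))) = f := by
      have e1 : (pullback.snd c (str k k[X])).appLE ⊤ V htop ≫ (graph c f).app V =
          (coordMap c f).appTop ≫ (regOpen c f).toScheme.presheaf.map
            (homOfLE (le_top : Z ≤ ⊤)).op := by
        rw [Scheme.Hom.app_eq_appLE, Scheme.Hom.appLE_comp_appLE]
        exact appLE_congr_hom (pullback.lift_snd _ _ _) _ _ _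
      rw [← CommRingCat.comp_apply, e1, CommRingCat.comp_apply, coordMap_appTop,
        Scheme.Opens.topIso_inv, Scheme.Opens.toScheme_presheaf_map]
      refine (toFun_map c _ hη _).trans ((toFun_map c _ _ _).trans ?_)
      exact (toFun_coordHom c f X).trans (Polynomial.aeval_X f)
    refine ⟨π.appLE (W P) V le_rfl b * ((pullback.snd c (str k k[X])).appLE ⊤ V htop
        ((Scheme.ΓSpecIso (CommRingCat.of k[X])).inv X)) ^ n, hinj ?_⟩
    rw [map_mul, map_pow, map_mul, map_pow, hfst, hsnd, hb]
  refine IsClosedImmersion.of_surjective_of_isAffine _ ?_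
  rw [morphismRestrict_appTop]
  exact (ConcreteCategory.bijective_of_isIso ((regOpen c f).toScheme.presheaf.map
    (eqToHom (image_morphismRestrict_preimage (graph c f) V ⊤)).op)).surjective.comp
    (hsurj _ (Scheme.Opens.ι_image_top V))

variable [IsProper c]

theorem isProper_coordMap (hf : f ≠ 0) : IsProper (coordMap c f) := by
  haveI := isClosedImmersion_graph c f hf
  rw [show coordMap c f = graph c f ≫ pullback.snd c (str k k[X]) from
    (pullback.lift_snd _ _ _).symm]
  infer_instance

variable (hf : ∀ r : k, algebraMap k (FunField c) r ≠ f)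

include hf

omit [IsProper c] [SmoothOfRelativeDimension 1 c] in
theorem coordHom_injective : Function.Injective (coordHom c f) := by
  have htr : Transcendental k f := fun h => by
    obtain ⟨r, hr⟩ := IsAlgClosed.exists_root (minpoly k f)
      (minpoly.degree_pos h.isIntegral).ne'
    have := minpoly.eq_X_sub_C_of_algebraMap_inj r (algebraMap k (FunField c)).injective
    have hmin : minpoly k f = X - Polynomial.C r :=
      eq_of_monic_of_associated (minpoly.monic h.isIntegral) (monic_X_sub_C r)
        ((irreducible_X_sub_C r).associated_of_dvd (minpoly.irreducible h.isIntegral)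
          (dvd_iff_isRoot.2 hr)).symm
    have h0 := minpoly.aeval k f
    rw [hmin, map_sub, aeval_X, aeval_C, sub_eq_zero] at h0
    exact hf r h0.symm
  refine (injective_iff_map_eq_zero _).2 fun p hp => ?_
  have := congrArg (toFun c _ (generic_mem_regOpen c f)) hp
  rw [toFun_coordHom, map_zero] at this
  exact (transcendental_iff.1 htr) p this

omit [IsProper c] [SmoothOfRelativeDimension 1 c] in
theorem coordMap_generic :
    coordMap c f ⟨genericPoint C, generic_mem_regOpen c f⟩ = (⊥ : PrimeSpectrum k[X]) := by
  set η : (regOpen c f).toScheme := ⟨genericPoint C, generic_mem_regOpen c f⟩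
  refine PrimeSpectrum.ext (eq_bot_iff.2 fun p hp => ?_)
  rw [Submodule.mem_bot]
  by_contra hp0
  have hD : coordMap c f η ∈ PrimeSpectrum.basicOpen p := by
    set q := (Scheme.ΓSpecIso (CommRingCat.of k[X])).inv p
    have hq : (Spec (CommRingCat.of k[X])).basicOpen q = PrimeSpectrum.basicOpen p :=
      basicOpen_eq_of_affine p
    show coordMap c f η ∈ (PrimeSpectrum.basicOpen p : TopologicalSpace.Opens (PrimeSpectrum k[X]))
    rw [← hq]
    show η ∈ coordMap c f ⁻¹ᵁ (Spec (CommRingCat.of k[X])).basicOpen q
    rw [Scheme.preimage_basicOpen, ← Scheme.Hom.appTop]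
    erw [coordMap_appTop]
    have hne : (regOpen c f).topIso.inv (coordHom c f p) ≠ 0 := fun h => hp0 (coordHom_injective c f hf
      (((ConcreteCategory.bijective_of_isIso (regOpen c f).topIso.inv).injective
        (h.trans (map_zero _).symm)).trans (map_zero _).symm))
    rw [Ne, ← basicOpen_eq_bot_iff, ← Ne, Opens.ne_bot_iff_nonempty] at hne
    obtain ⟨Q, hQ⟩ := hne
    have hηQ : η ⤳ Q := (subtype_specializes_iff η Q).2 ((genericPoint_spec C).specializes trivial)
    exact hηQ.mem_open (Scheme.basicOpen _ _).isOpen hQ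
  exact hD hp

theorem finite_fibre (hf0 : f ≠ 0) (y : PrimeSpectrum k[X]) :
    (coordMap c f ⁻¹' {y}).Finite := by
  haveI := isProper_coordMap c f hf0
  set η : (regOpen c f).toScheme := ⟨genericPoint C, generic_mem_regOpen c f⟩
  have hgen := coordMap_generic c f hf
  have hne : ∀ P : (regOpen c f).toScheme, P ≠ η → IsClosed {P} := fun P hP => by
    have h := isClosed_singleton c (P := P.1) fun e => hP (Subtype.ext e)
    have e : (regOpen c f).ι ⁻¹' {P.1} = {P} := Set.ext fun Q =>
      ⟨fun h => Subtype.ext h, fun h => congrArg Subtype.val h⟩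
    exact e ▸ h.preimage (regOpen c f).ι.continuous
  by_cases hy : y = ⊥
  · refine (Set.finite_singleton η).subset fun P hP => ?_
    by_contra hPη
    have hcl : IsClosed ({⊥} : Set (PrimeSpectrum k[X])) := by
      have := (coordMap c f).isClosedMap _ (hne P hPη)
      rwa [Set.image_singleton, show coordMap c f P = y from hP, hy] at this
    rw [PrimeSpectrum.isClosed_singleton_iff_isMaximal] at hcl
    exact Polynomial.not_isField k (Ring.isField_iff_maximal_bot.2 hcl)
  · have hmax : y.asIdeal.IsMaximal :=
      y.isPrime.isMaximal fun e => hy (PrimeSpectrum.ext e)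
    have hs : IsClosed (coordMap c f ⁻¹' {y}) :=
      ((PrimeSpectrum.isClosed_singleton_iff_isMaximal y).2 hmax).preimage (coordMap c f).continuous
    haveI : CompactSpace C := (quasiCompact_iff_compactSpace c).1 inferInstance
    haveI : IsLocallyNoetherian C := LocallyOfFiniteType.isLocallyNoetherian c
    haveI : IsNoetherian C := {}
    haveI : NoetherianSpace (regOpen c f).toScheme :=
      Topology.IsInducing.subtypeVal.noetherianSpace
    obtain ⟨S, hS, hcl, hirr, e⟩ := NoetherianSpace.exists_finite_set_isClosed_irreducible hs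
    rw [e]
    refine hS.sUnion fun Z hZ => ?_
    have hQ : (hirr Z hZ).genericPoint ∈ Z := by
      have := (hirr Z hZ).isGenericPoint_genericPoint_closure.mem
      rwa [(hcl Z hZ).closure_eq] at this
    have hQη : (hirr Z hZ).genericPoint ≠ η := fun eη => hy (by
      have : η ∈ coordMap c f ⁻¹' {y} := e ▸ ⟨Z, hZ, eη ▸ hQ⟩
      exact (this : coordMap c f η = y).symm.trans hgen)
    refine (Set.finite_singleton (hirr Z hZ).genericPoint).subset fun R hR => ?_
    have h1 := (hirr Z hZ).isGenericPoint_genericPoint_closure.def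
    rw [(hne _ hQη).closure_eq, (hcl Z hZ).closure_eq] at h1
    exact h1.symm.subset hR

theorem isFinite_coordMap (hf0 : f ≠ 0) : IsFinite (coordMap c f) := by
  haveI := isProper_coordMap c f hf0
  haveI : LocallyQuasiFinite (coordMap c f) :=
    LocallyQuasiFinite.of_finite_preimage_singleton _ (finite_fibre c f hf hf0)
  exact IsFinite.of_isProper_of_locallyQuasiFinite _

/-- The regular locus of a nonconstant function is affine. -/
theorem isAffineOpen_regOpen (hf0 : f ≠ 0) : IsAffineOpen (regOpen c f) := by
  haveI := isFinite_coordMap c f hf hf0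
  exact isAffine_of_isAffineHom (coordMap c f)

/-- The functions on the regular locus are finite over the polynomials in the function. -/
theorem finite_sec_regOpen (hf0 : f ≠ 0) :
    RingHom.Finite (A := k[X]) (B := sec c (regOpen c f) (generic_mem_regOpen c f))
      (Polynomial.aeval (⟨f, mem_sec_regOpen c f⟩ :
        sec c (regOpen c f) (generic_mem_regOpen c f))).toRingHom := by
  have hU := isAffineOpen_regOpen c f hf hf0
  haveI := isFinite_coordMap c f hf hf0
  have hfin : (coordHom c f).Finite := by
    have h : IsFinite (Spec.map (CommRingCat.ofHom (coordHom c f))) := by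
      rw [show Spec.map (CommRingCat.ofHom (coordHom c f)) = hU.isoSpec.inv ≫ coordMap c f by
        rw [coordMap, ← hU.isoSpec_hom, Iso.inv_hom_id_assoc]]
      infer_instance
    exact (IsFinite.SpecMap_iff _).1 h
  let π : Γ(C, regOpen c f) →+* sec c (regOpen c f) (generic_mem_regOpen c f) :=
    (toFun c _ (generic_mem_regOpen c f)).codRestrict _ fun s => ⟨s, rfl⟩
  have hπ : Function.Surjective π := fun ⟨_, s, hs⟩ => ⟨s, Subtype.ext hs⟩
  have e : (Polynomial.aeval (⟨f, mem_sec_regOpen c f⟩ :
      sec c (regOpen c f) (generic_mem_regOpen c f))).toRingHom = π.comp (coordHom c f) := by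
    refine RingHom.ext fun p => Subtype.ext ?_
    show ((Polynomial.aeval _ p : sec c _ _) : FunField c) = toFun c _ _ (coordHom c f p)
    rw [toFun_coordHom]
    exact (Polynomial.aeval_algHom_apply (Subalgebra.val _) _ p).symm
  rw [e]
  exact (RingHom.Finite.of_surjective π hπ).comp hfin

end Fermat.Agent.RelPic.Curve
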