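import Fermat.Agent.AbVar.LocalAlg.SmoothPoint
import Fermat.Agent.AbVar.Curve.TensorDomain
import Mathlib.RingTheory.DedekindDomain.Dvr
import Mathlib.RingTheory.DiscreteValuationRing.TFAE

/-!
# Smooth affine curves over an algebraically closed field have Dedekind coordinate rings
-/

set_option autoImplicit false
set_option linter.style.haveILetI false

noncomputable section

open scoped TensorProduct

namespace Fermat.Agent.RelPic.Curve

universe u

open Fermat.Agent.AbVar

variable {K : Type u} [Field K] [IsAlgClosed K] {A : Type u} [CommRing A] [IsDomain A]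
  [Algebra K A] [Algebra.FiniteType K A]

omit [IsDomain A] in
/-- The rational point of a maximal ideal. -/
theorem exists_point_of_isMaximal (m : Ideal A) [m.IsMaximal] :
    ∃ φ : A →ₐ[K] K, RingHom.ker φ = m := by
  letI := Ideal.Quotient.field m
  haveI : Module.Finite K (A ⧸ m) := finite_of_finite_type_of_isJacobsonRing K (A ⧸ m)
  let e : K ≃ₐ[K] A ⧸ m := AlgEquiv.ofBijective (Algebra.ofId K (A ⧸ m))
    (IsAlgClosed.algebraMap_bijective_of_isIntegral (k := K) (K := A ⧸ m))
  refine ⟨e.symm.toAlgHom.comp (Ideal.Quotient.mkₐ K m), ?_⟩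
  ext a
  rw [RingHom.mem_ker, AlgHom.comp_apply]
  exact (e.symm.map_eq_zero_iff).trans Ideal.Quotient.eq_zero_iff_mem

/-- The local ring at a point near which the algebra is standard smooth of dimension one. -/
theorem isDiscreteValuationRing_of_standardSmooth (m : Ideal A) [m.IsMaximal] {g : A} (hg : g ∉ m)
    [Algebra.IsStandardSmoothOfRelativeDimension 1 K (Localization.Away g)] :
    IsDiscreteValuationRing (Localization.AtPrime m) := by
  classical
  haveI : IsNoetherianRing A := Algebra.FiniteType.isNoetherianRing K A
  obtain ⟨φ, hφ⟩ := exists_point_of_isMaximal (K := K) m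
  have hu : ∀ y : Submonoid.powers g, IsUnit (φ y) := fun y => by
    obtain ⟨_, n, rfl⟩ := y
    refine isUnit_iff_ne_zero.2 fun h => hg ?_
    rw [← hφ, RingHom.mem_ker]
    exact eq_zero_of_pow_eq_zero ((map_pow φ g n).symm.trans h)
  let π : Localization.Away g →ₐ[K] K :=
    IsLocalization.liftAlgHom (M := Submonoid.powers g) (f := φ) hu
  have hπ : ∀ a : A, π (algebraMap A (Localization.Away g) a) = φ a := fun a =>
    IsLocalization.lift_eq _ a
  haveI hp : (RingHom.ker π).IsPrime := RingHom.ker_isPrime _
  obtain ⟨X⟩ := nonempty_expansion (g := 1) π (Localization.AtPrime (RingHom.ker π))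
  have hcomap : (RingHom.ker π).comap (algebraMap A (Localization.Away g)) = m := by
    ext a
    rw [Ideal.mem_comap, RingHom.mem_ker, hπ, ← RingHom.mem_ker, hφ]
  have hfield : ¬ IsField (Localization.AtPrime (RingHom.ker π)) := by
    intro h
    have hb := (IsLocalRing.isField_iff_maximalIdeal_eq).1 h
    have ht : X.t 0 = 0 := by
      have : X.t 0 ∈ IsLocalRing.maximalIdeal (Localization.AtPrime (RingHom.ker π)) :=
        X.span_t ▸ Ideal.subset_span ⟨0, rfl⟩
      rwa [hb] at this
    have h2 := X.σ_t 0 (Finsupp.single 0 1) (by simp)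
    rw [ht, map_zero, zero_sub, map_neg, MvPowerSeries.coeff_index_single_self_X] at h2
    exact one_ne_zero (neg_eq_zero.1 h2)
  haveI hnoe : IsNoetherianRing (Localization.AtPrime (RingHom.ker π)) :=
    IsLocalization.isNoetherianRing (RingHom.ker π).primeCompl _
      (IsLocalization.isNoetherianRing (Submonoid.powers g) (Localization.Away g) ‹_›)
  haveI : IsDomain (Localization.Away g) :=
    IsLocalization.isDomain_localization (powers_le_nonZeroDivisors_of_noZeroDivisors
      fun h => hg (h ▸ m.zero_mem))
  have hpri : (IsLocalRing.maximalIdeal (Localization.AtPrime (RingHom.ker π))).IsPrincipal := by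
    rw [X.span_t, Set.range_unique]
    exact ⟨⟨_, rfl⟩⟩
  have hdvr : IsDiscreteValuationRing (Localization.AtPrime (RingHom.ker π)) :=
    ((IsDiscreteValuationRing.TFAE _ hfield).out 0 4).2 hpri
  haveI := hdvr
  let e := IsLocalization.localizationLocalizationAtPrimeIsoLocalization (Submonoid.powers g)
    (RingHom.ker π)
  haveI hm : ((RingHom.ker π).comap (algebraMap A (Localization.Away g))).IsPrime := inferInstance
  have h := IsDiscreteValuationRing.RingEquivClass.isDiscreteValuationRing e.symm.toRingEquiv
  have key : ∀ q : Ideal A, q = m → ∀ [q.IsPrime], IsDomain (Localization.AtPrime q) →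
      IsDiscreteValuationRing (Localization.AtPrime q) →
        IsDiscreteValuationRing (Localization.AtPrime m) := by
    rintro q rfl _ _ h'
    exact h'
  exact key _ hcomap inferInstance h

/-- Smoothness of relative dimension one, pointwise. -/
def LocSmoothOne (K A : Type u) [CommRing K] [CommRing A] [Algebra K A] : Prop :=
  ∀ m : Ideal A, m.IsMaximal →
    ∃ g ∉ m, Algebra.IsStandardSmoothOfRelativeDimension 1 K (Localization.Away g)

/-- The coordinate ring of a smooth affine curve is a Dedekind domain. -/
theorem isDedekindDomain_of_locSmoothOne (h : LocSmoothOne K A) : IsDedekindDomain A := by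
  haveI : IsNoetherianRing A := Algebra.FiniteType.isNoetherianRing K A
  have hdvr : ∀ m : Ideal A, [m.IsMaximal] → IsDiscreteValuationRing (Localization.AtPrime m) :=
    fun m hm => by
      obtain ⟨g, hg, hs⟩ := h m hm
      exact isDiscreteValuationRing_of_standardSmooth (K := K) m hg
  have hmax : ∀ p : Ideal A, p ≠ ⊥ → p.IsPrime → p.IsMaximal := fun p hp0 hp => by
    obtain ⟨q, hq, hpq⟩ := p.exists_le_maximal hp.ne_top
    haveI := hdvr q
    let f := (IsLocalization.orderIsoOfPrime q.primeCompl (Localization.AtPrime q)).symm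
    let P := f ⟨p, hp, hpq.disjoint_compl_left⟩
    let Q := f ⟨q, hq.isPrime, Set.disjoint_left.mpr fun _ a => a⟩
    have hinj : Function.Injective (algebraMap A (Localization.AtPrime q)) :=
      IsLocalization.injective (Localization.AtPrime q) q.primeCompl_le_nonZeroDivisors
    have hp1 : P.1 ≠ ⊥ := fun x => hp0 ((p.map_eq_bot_iff_of_injective hinj).mp x)
    have hq1 : Q.1 ≠ ⊥ :=
      fun x => (ne_bot_of_le_ne_bot hp0 hpq) ((q.map_eq_bot_iff_of_injective hinj).mp x)
    obtain ⟨-, huq⟩ :=
      (IsDiscreteValuationRing.iff_pid_with_one_nonzero_prime (Localization.AtPrime q)).mp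
        inferInstance
    rw [show p = q from Subtype.val_inj.mpr <| f.injective <|
      Subtype.val_inj.mp (huq.unique ⟨hp1, P.2⟩ ⟨hq1, Q.2⟩)]
    exact hq
  haveI : IsDedekindDomainDvr A :=
    { is_dvr_at_nonzero_prime := fun p hp0 hp => by
        haveI := hmax p hp0 hp
        exact hdvr p }
  infer_instance

end Fermat.Agent.RelPic.Curve
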