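import Mathlib.FieldTheory.IntermediateField.Adjoin.Basic
import Mathlib.LinearAlgebra.FreeModule.PID
import Mathlib.LinearAlgebra.Dimension.Finite
import Mathlib.RingTheory.Finiteness.Basic
import Mathlib.Algebra.Polynomial.AlgebraMap

/-!
# A coordinate ring finite over the polynomials in an element is free of degree `[F : k(x)]`
-/

set_option autoImplicit false
set_option linter.style.haveILetI false

noncomputable section

universe u

open Polynomial IntermediateField

namespace Fermat.Agent.RelPic.Curve

theorem exists_free {k F : Type u} [Field k] [Field F] [Algebra k F] (A : Subalgebra k F) (x : F)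
    (hx : x ∈ A) (hfrac : ∀ f : F, ∃ a ∈ A, ∃ s ∈ A, s ≠ 0 ∧ f = a / s)
    (hinj : Function.Injective (Polynomial.aeval x : k[X] → F))
    (hfin : RingHom.Finite (A := k[X]) (B := A)
      (Polynomial.aeval (⟨x, hx⟩ : A)).toRingHom) :
    0 < Module.finrank k⟮x⟯ F ∧
      ∃ b : Fin (Module.finrank k⟮x⟯ F) → A, Function.Bijective
        fun f : Fin (Module.finrank k⟮x⟯ F) → k[X] =>
          ∑ i, aeval (⟨x, hx⟩ : A) (f i) * b i := by
  classical
  letI : Algebra k[X] A := (Polynomial.aeval (⟨x, hx⟩ : A)).toRingHom.toAlgebra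
  haveI : Module.Finite k[X] A := hfin
  have hco : ∀ p : k[X], ((algebraMap k[X] A p : A) : F) = aeval x p := fun p =>
    (Polynomial.aeval_algHom_apply A.val _ p).symm
  haveI : Module.IsTorsionFree k[X] A := by
    refine Module.isTorsionFree_iff_smul_eq_zero.2 fun p a h => ?_
    rw [Algebra.smul_def, mul_eq_zero] at h
    refine h.imp_left fun h => hinj ?_
    rw [map_zero, ← hco, h]; rfl
  haveI : Module.Free k[X] A := Module.free_of_finite_type_torsion_free'
  set n := Module.finrank k[X] A
  let b := Module.finBasis k[X] A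
  let v : Fin n → F := fun i => (b i : F)
  let X' : k⟮x⟯ := AdjoinSimple.gen k x
  have hX : ∀ p : k[X], ((aeval X' p : k⟮x⟯) : F) = aeval x p := fun p =>
    (Polynomial.aeval_algHom_apply (IntermediateField.val _) X' p).symm
  have hli : LinearIndependent k⟮x⟯ v := by
    refine Fintype.linearIndependent_iff.2 fun g hg => ?_
    have hpq : ∀ i, ∃ p q : k[X], aeval x q ≠ 0 ∧ (g i : F) * aeval x q = aeval x p := fun i => by
      obtain ⟨p, q, e⟩ := IntermediateField.mem_adjoin_simple_iff k (g i : F) |>.1 (g i).2
      by_cases hq : aeval x q = 0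
      · exact ⟨0, 1, by simp, by rw [e, hq]; simp⟩
      · exact ⟨p, q, hq, by rw [e, div_mul_cancel₀ _ hq]⟩
    choose p q hq e using hpq
    let r : Fin n → k[X] := fun i => p i * ∏ j ∈ Finset.univ.erase i, q j
    have hr : ∑ i, r i • b i = 0 := Subtype.ext <| by
      rw [AddSubmonoidClass.coe_finsetSum, ZeroMemClass.coe_zero]
      calc ∑ i, ((r i • b i : A) : F) = ∑ i, (∏ j, aeval x (q j)) * ((g i : F) * v i) :=
            Finset.sum_congr rfl fun i _ => by
              rw [Algebra.smul_def, MulMemClass.coe_mul, hco, map_mul, map_prod, ← e,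
                ← Finset.mul_prod_erase Finset.univ (fun j => aeval x (q j)) (Finset.mem_univ i)]
              ring
        _ = 0 := by
          rw [← Finset.mul_sum]
          refine mul_eq_zero_of_right _ ?_
          exact hg
    intro i
    have h0 : r i = 0 := Fintype.linearIndependent_iff.1 b.linearIndependent r hr i
    have hp : aeval x (p i) = 0 := by
      have h1 := congrArg (aeval x) h0
      rw [map_mul, map_prod, map_zero, mul_eq_zero] at h1
      exact h1.resolve_right (Finset.prod_ne_zero_iff.2 fun j _ => hq j)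
    refine Subtype.ext ?_
    have := e i
    rw [hp, mul_eq_zero] at this
    exact this.resolve_right (hq i)
  set W : Submodule k⟮x⟯ F := Submodule.span k⟮x⟯ (Set.range v)
  have hA : ∀ a ∈ A, a ∈ W := fun a ha => by
    have := congrArg Subtype.val (b.sum_repr ⟨a, ha⟩)
    rw [AddSubmonoidClass.coe_finsetSum] at this
    rw [show a = ((⟨a, ha⟩ : A) : F) from rfl, ← this]
    refine Submodule.sum_mem _ fun i _ => ?_
    rw [Algebra.smul_def, MulMemClass.coe_mul, hco, ← hX]
    exact Submodule.smul_mem W (aeval X' _) (Submodule.subset_span ⟨i, rfl⟩)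
  have hmul : ∀ y z, y ∈ W → z ∈ W → y * z ∈ W := fun y z hy hz => by
    induction hy using Submodule.span_induction with
    | mem y hy =>
      obtain ⟨i, rfl⟩ := hy
      induction hz using Submodule.span_induction with
      | mem z hz => obtain ⟨j, rfl⟩ := hz; exact hA _ (mul_mem (b i).2 (b j).2)
      | zero => simp
      | add z z' _ _ h h' => rw [mul_add]; exact add_mem h h'
      | smul r z _ h => rw [mul_smul_comm]; exact W.smul_mem r h
    | zero => simp
    | add y y' _ _ h h' => rw [add_mul]; exact add_mem h h'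
    | smul r y _ h => rw [smul_mul_assoc]; exact W.smul_mem r h
  let S : Subalgebra k⟮x⟯ F := W.toSubalgebra (hA 1 A.one_mem) hmul
  haveI : FiniteDimensional k⟮x⟯ W := FiniteDimensional.span_of_finite _ (Set.finite_range v)
  haveI : FiniteDimensional k⟮x⟯ S := inferInstanceAs (FiniteDimensional k⟮x⟯ W)
  have htop : ⊤ ≤ W := fun f _ => by
    obtain ⟨a, ha, s, hs, hs0, rfl⟩ := hfrac f
    have hsS : s ∈ S := hA s hs
    have hinv : s⁻¹ ∈ S := S.inv_mem_of_algebraic (x := ⟨s, hsS⟩)
      (isAlgebraic_iff_isIntegral.2 (IsIntegral.map S.val (IsIntegral.of_finite k⟮x⟯ (⟨s, hsS⟩ : S))))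
    rw [div_eq_mul_inv]
    exact hmul a _ (hA a ha) hinv
  let B : Module.Basis (Fin n) k⟮x⟯ F := Module.Basis.mk hli htop
  have hrank : Module.finrank k⟮x⟯ F = n := by rw [Module.finrank_eq_card_basis B, Fintype.card_fin]
  have hn : 0 < n := by
    rw [← hrank]
    haveI : Module.Finite k⟮x⟯ F := Module.Finite.of_basis B
    exact Module.finrank_pos
  rw [hrank]
  refine ⟨hn, fun i => b i, ?_⟩
  have : (fun f : Fin n → k[X] => ∑ i, aeval (⟨x, hx⟩ : A) (f i) * b i) = ⇑b.equivFun.symm := by
    funext f
    rw [Module.Basis.equivFun_symm_apply]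
    exact Finset.sum_congr rfl fun i _ => by rw [Algebra.smul_def]; rfl
  rw [this]
  exact b.equivFun.symm.bijective

end Fermat.Agent.RelPic.Curve
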