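import Fermat.Agent.RelPic.Curve.Coord
import Fermat.Agent.RelPic.Curve.Free

/-!
# The two-chart model of a pointed smooth proper curve
-/

set_option autoImplicit false
set_option linter.style.haveILetI false

noncomputable section

universe u

open CategoryTheory CategoryTheory.Limits AlgebraicGeometry TopologicalSpace Opposite Polynomial
  NeronModelInfra

namespace Fermat.Agent.RelPic.Curve

variable {k : Type u} [Field k] {C : Scheme.{u}} [IsIntegral C] (c : C ⟶ Spec (CommRingCat.of k))

theorem stalkVal_injective (Q : C) : Function.Injective (stalkVal c Q) :=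
  IsFractionRing.injective (C.presheaf.stalk Q) C.functionField

theorem stalkVal_germ {W : C.Opens} (Q : C) (hQ : Q ∈ W) (s : Γ(C, W)) :
    stalkVal c Q (C.presheaf.germ W Q hQ s) = toFun c W (generic_mem hQ) s := by
  haveI : Nonempty W := ⟨⟨Q, hQ⟩⟩
  exact Scheme.algebraMap_germ_eq_germToFunctionField C hQ s

theorem basicOpen_eq_inf {W : C.Opens} (hW : genericPoint C ∈ W) (y : Γ(C, W)) {g : FunField c}
    (hy : toFun c W hW y = g) (hg : g ≠ 0) : C.basicOpen y = W ⊓ regOpen c g⁻¹ := by
  ext Q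
  refine ⟨fun hQ => ⟨C.basicOpen_le y hQ, ?_⟩, fun ⟨hQW, hQ⟩ => ?_⟩
  · obtain ⟨z, hz⟩ := ((C.mem_basicOpen y Q (C.basicOpen_le y hQ)).1 hQ).exists_right_inv
    refine (regularAt_iff_stalk c).2 ⟨z, ?_⟩
    have h1 := congrArg (stalkVal c Q) hz
    rw [map_mul, map_one, stalkVal_germ] at h1
    erw [hy] at h1
    exact eq_inv_of_mul_eq_one_right h1
  · show Q ∈ C.basicOpen y
    rw [C.mem_basicOpen y Q hQW]
    obtain ⟨z, hz⟩ := (regularAt_iff_stalk c).1 hQ
    refine IsUnit.of_mul_eq_one z (stalkVal_injective c Q ?_)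
    have hz' : stalkVal c Q z = g⁻¹ := hz
    rw [map_mul, map_one, stalkVal_germ, hy, hz', mul_inv_cancel₀ hg]

/-- The map from sections to the regular functions. -/
def toSec (W : C.Opens) (hW : genericPoint C ∈ W) : Γ(C, W) →+* sec c W hW :=
  (toFun c W hW).codRestrict _ fun s => ⟨s, rfl⟩

theorem bijective_toSec (W : C.Opens) (hW : genericPoint C ∈ W) :
    Function.Bijective (toSec c W hW) :=
  ⟨fun _ _ h => toFun_injective c W hW (congrArg Subtype.val h),
    fun ⟨_, s, hs⟩ => ⟨s, Subtype.ext hs⟩⟩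

theorem exists_div {W : C.Opens} (hW : IsAffineOpen W) (hη : genericPoint C ∈ W) (f : FunField c) :
    ∃ a ∈ sec c W hη, ∃ s ∈ sec c W hη, s ≠ 0 ∧ f = a / s := by
  haveI : Nonempty W := ⟨⟨_, hη⟩⟩
  haveI := functionField_isFractionRing_of_isAffineOpen C W hW
  obtain ⟨⟨a, b⟩, hab⟩ := IsLocalization.surj (nonZeroDivisors Γ(C, W)) (S := C.functionField) f
  have hb : toFun c W hη b ≠ 0 :=
    (map_ne_zero_iff _ (toFun_injective c W hη)).2 (nonZeroDivisors.coe_ne_zero b)
  exact ⟨_, ⟨a, rfl⟩, _, ⟨b, rfl⟩, hb, (eq_div_iff hb).2 hab⟩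

variable [IsAlgClosed k]

omit [IsIntegral C] in
theorem eq_algebraMap_of_isIntegral {F : Type u} [Field F] [Algebra k F] {f : F}
    (h : IsIntegral k f) : ∃ r : k, algebraMap k F r = f := by
  obtain ⟨r, hr⟩ := IsAlgClosed.exists_root (minpoly k f) (minpoly.degree_pos h).ne'
  have hmin : minpoly k f = X - Polynomial.C r :=
    eq_of_monic_of_associated (minpoly.monic h) (monic_X_sub_C r)
      ((irreducible_X_sub_C r).associated_of_dvd (minpoly.irreducible h) (dvd_iff_isRoot.2 hr)).symm
  have h0 := minpoly.aeval k f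
  rw [hmin, map_sub, aeval_X, aeval_C, sub_eq_zero] at h0
  exact ⟨r, h0.symm⟩

variable [SmoothOfRelativeDimension 1 c]

include c in
theorem not_isField_gamma {W : C.Opens} (hW : IsAffineOpen W) (hη : genericPoint C ∈ W) :
    ¬ IsField Γ(C, W) := by
  intro hf
  haveI : Nonempty W := ⟨⟨_, hη⟩⟩
  letI := gammaAlgebra c W
  haveI := finiteType_gamma c hW
  haveI hm : (⊥ : Ideal Γ(C, W)).IsMaximal := Ring.isField_iff_maximal_bot.1 hf
  obtain ⟨g, hg, hs⟩ := locSmoothOne_gamma c hW ⊥ hm
  haveI := isDiscreteValuationRing_of_standardSmooth (K := k) (⊥ : Ideal Γ(C, W)) hg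
  haveI : IsFractionRing Γ(C, W) (Localization.AtPrime (⊥ : Ideal Γ(C, W))) := by
    unfold IsFractionRing
    have e : (⊥ : Ideal Γ(C, W)).primeCompl = nonZeroDivisors Γ(C, W) := by
      ext x
      rw [mem_nonZeroDivisors_iff_ne_zero]
      rfl
    rw [← e]
    infer_instance
  exact IsDiscreteValuationRing.not_isField (Localization.AtPrime (⊥ : Ideal Γ(C, W)))
    (IsFractionRing.toField Γ(C, W)).toIsField

include c in
theorem not_isClosed_generic : ¬ IsClosed {genericPoint C} := by
  intro h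
  obtain ⟨_, ⟨W, hW, rfl⟩, hηW, -⟩ :=
    C.isBasis_affineOpens.exists_subset_of_mem_open (Set.mem_univ (genericPoint C)) isOpen_univ
  haveI : Nonempty W := ⟨⟨_, hηW⟩⟩
  have hm := hW.primeIdealOf_isMaximal_of_isClosed ⟨_, hηW⟩ h
  rw [hW.primeIdealOf_genericPoint, genericPoint_eq_bot_of_affine] at hm
  exact not_isField_gamma c hW hηW (Ring.isField_iff_maximal_bot.2 hm)

/-- A nonconstant function which is a unit at the marked point. -/
theorem exists_coord (ε : SchemeHomOver (𝟙 (Spec (CommRingCat.of k))) c) :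
    ∃ f : FunField c, f ≠ 0 ∧ (∀ r, algebraMap k (FunField c) r ≠ f) ∧
      RegularAt c f (ε.1 (IsLocalRing.closedPoint k)) ∧
      RegularAt c f⁻¹ (ε.1 (IsLocalRing.closedPoint k)) := by
  haveI : Smooth c := SmoothOfRelativeDimension.smooth 1 c
  set e0 := ε.1 (IsLocalRing.closedPoint k)
  have hcl : IsClosed {e0} := (pointEquivClosedPoint c ⟨ε.1, ε.2⟩).2
  have he : e0 ≠ genericPoint C := fun h => not_isClosed_generic c (h ▸ hcl)
  haveI := isDiscreteValuationRing_stalk c he
  obtain ⟨t, ht⟩ := IsDiscreteValuationRing.exists_irreducible (C.presheaf.stalk e0)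
  have htm : t ∈ IsLocalRing.maximalIdeal _ := (IsLocalRing.mem_maximalIdeal _).2 ht.not_isUnit
  have hu : IsUnit (1 + t) := by
    by_contra h
    have h' : 1 + t ∈ IsLocalRing.maximalIdeal _ := (IsLocalRing.mem_maximalIdeal _).2 h
    exact (IsLocalRing.maximalIdeal.isMaximal (C.presheaf.stalk e0)).ne_top
      ((Ideal.eq_top_iff_one _).2 (by simpa using sub_mem h' htm))
  obtain ⟨v, hv⟩ := hu
  have hone : stalkVal c e0 (↑v⁻¹ : C.presheaf.stalk e0) * stalkVal c e0 v = 1 := by
    rw [← map_mul, Units.inv_mul, map_one]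
  refine ⟨stalkVal c e0 v, right_ne_zero_of_mul_eq_one hone, fun r hr => ?_,
    (regularAt_iff_stalk c).2 ⟨v, rfl⟩,
    (regularAt_iff_stalk c).2 ⟨↑v⁻¹, eq_inv_of_mul_eq_one_left hone⟩⟩
  set κ := C.presheaf.germ ⊤ e0 trivial (kGamma c ⊤ (r - 1))
  have e1 : t = κ := stalkVal_injective c e0 (by
    rw [show t = (v : C.presheaf.stalk e0) - 1 by rw [hv]; ring, map_sub, map_one, ← hr]
    refine Eq.trans ?_ (stalkVal_germ c (W := ⊤) e0 trivial _).symm
    rw [toFun_kGamma, map_sub, map_one])
  have hne : r - 1 ≠ 0 := fun h0 => ht.ne_zero (by rw [e1]; simp only [κ, h0, map_zero])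
  exact ht.not_isUnit (e1 ▸ ((isUnit_iff_ne_zero.2 hne).map (kGamma c ⊤)).map
    (C.presheaf.germ ⊤ e0 trivial).hom)

variable [IsProper c]

omit [SmoothOfRelativeDimension 1 c] in
theorem sec_top : sec c ⊤ trivial = ⊥ := by
  refine eq_bot_iff.2 fun f ⟨s, hs⟩ => ?_
  letI := gammaAlgebra c ⊤
  haveI : Module.Finite k Γ(C, ⊤) := by
    have h := finite_appTop_of_universallyClosed k c
    have h' : RingHom.Finite ((Scheme.ΓSpecIso (CommRingCat.of k)).inv ≫ c.appTop).hom :=
      RingHom.Finite.comp h (RingHom.Finite.of_surjective _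
        (ConcreteCategory.bijective_of_isIso (Scheme.ΓSpecIso (CommRingCat.of k)).inv).surjective)
    have e : kGamma c ⊤ = ((Scheme.ΓSpecIso (CommRingCat.of k)).inv ≫ c.appTop).hom := by
      rw [kGamma, Scheme.Hom.appTop, Scheme.Hom.app_eq_appLE]
      rfl
    rw [← e] at h'
    exact h'
  let τ : Γ(C, ⊤) →ₐ[k] FunField c :=
    { toFun c ⊤ trivial with commutes' := fun r => toFun_kGamma c ⊤ trivial r }
  obtain ⟨r, hr⟩ := eq_algebraMap_of_isIntegral ((IsIntegral.of_finite k s).map τ)
  exact Algebra.mem_bot.2 ⟨r, hr.trans hs⟩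

/-- The chart of an affine open. -/
def chart {W : C.Opens} (hW : IsAffineOpen W) (hη : genericPoint C ∈ W) :
    Spec (CommRingCat.of (sec c W hη)) ⟶ C :=
  Spec.map (CommRingCat.ofHom (toSec c W hη)) ≫ hW.fromSpec

omit [IsAlgClosed k] [SmoothOfRelativeDimension 1 c] [IsProper c] in
theorem isIso_toSec (W : C.Opens) (hW : genericPoint C ∈ W) :
    IsIso (CommRingCat.ofHom (toSec c W hW)) :=
  (ConcreteCategory.isIso_iff_bijective _).2 (bijective_toSec c W hW)

omit [IsAlgClosed k] [SmoothOfRelativeDimension 1 c] [IsProper c] in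
theorem isOpenImmersion_chart {W : C.Opens} (hW : IsAffineOpen W) (hη : genericPoint C ∈ W) :
    IsOpenImmersion (chart c hW hη) := by
  haveI := isIso_toSec c W hη
  unfold chart
  infer_instance

omit [IsAlgClosed k] [SmoothOfRelativeDimension 1 c] [IsProper c] in
theorem range_chart {W : C.Opens} (hW : IsAffineOpen W) (hη : genericPoint C ∈ W) :
    Set.range (chart c hW hη) = W := by
  haveI := isIso_toSec c W hη
  have hs : Function.Surjective (Spec.map (CommRingCat.ofHom (toSec c W hη))) :=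
    (Spec.map (CommRingCat.ofHom (toSec c W hη))).homeomorph.surjective
  rw [chart, Scheme.Hom.comp_base, TopCat.coe_comp, Set.range_comp,
    Set.range_eq_univ.2 hs,
    Set.image_univ]
  exact hW.range_fromSpec

omit [IsAlgClosed k] [SmoothOfRelativeDimension 1 c] [IsProper c] in
theorem chart_str {W : C.Opens} (hW : IsAffineOpen W) (hη : genericPoint C ∈ W) :
    chart c hW hη ≫ c = str k (sec c W hη) := by
  have e : CommRingCat.ofHom (algebraMap k (sec c W hη)) =
      (Scheme.ΓSpecIso (CommRingCat.of k)).inv ≫ c.appLE ⊤ W le_top ≫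
        CommRingCat.ofHom (toSec c W hη) := by
    ext r
    exact (toFun_kGamma c W hη r).symm
  rw [str, e, Spec.map_comp, Spec.map_comp, chart, Category.assoc, Category.assoc,
    ← IsAffineOpen.SpecMap_appLE_fromSpec c (isAffineOpen_top _) hW le_top,
    IsAffineOpen.fromSpec_top, Scheme.isoSpec_Spec_inv]

omit [IsAlgClosed k] [SmoothOfRelativeDimension 1 c] [IsProper c] in
theorem chart_incl {W W' : C.Opens} (hW : IsAffineOpen W) (hW' : IsAffineOpen W') (h : W' ≤ W)
    (hη : genericPoint C ∈ W') :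
    specHom (Subalgebra.inclusion (sec_anti c h hη)) ≫ chart c hW (h hη) = chart c hW' hη := by
  have e : CommRingCat.ofHom (toSec c W (h hη)) ≫
      CommRingCat.ofHom (Subalgebra.inclusion (sec_anti c h hη)).toRingHom =
      C.presheaf.map (homOfLE h).op ≫ CommRingCat.ofHom (toSec c W' hη) := by
    ext s
    exact (toFun_map c (homOfLE h) hη s).symm
  rw [chart, chart, specHom, ← Category.assoc, ← Spec.map_comp, e, Spec.map_comp, Category.assoc,
    hW.map_fromSpec hW']

/-- A pointed smooth proper curve has a two-chart model. -/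
theorem exists_geomModel (ε : SchemeHomOver (𝟙 (Spec (CommRingCat.of k))) c) :
    Nonempty (GeomModel c ε) := by
  obtain ⟨f, hf0, hf, hfe, hfe'⟩ := exists_coord c ε
  have hf0' : f⁻¹ ≠ 0 := inv_ne_zero hf0
  have hf' : ∀ r, algebraMap k (FunField c) r ≠ f⁻¹ := fun r hr =>
    hf r⁻¹ (by rw [map_inv₀, hr, inv_inv])
  set U := regOpen c f
  set V := regOpen c f⁻¹
  have hηU : genericPoint C ∈ U := generic_mem_regOpen c f
  have hηV : genericPoint C ∈ V := generic_mem_regOpen c f⁻¹
  have hηI : genericPoint C ∈ U ⊓ V := ⟨hηU, hηV⟩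
  have hU : IsAffineOpen U := isAffineOpen_regOpen c f hf hf0
  have hV : IsAffineOpen V := isAffineOpen_regOpen c f⁻¹ hf' hf0'
  have hbU : C.basicOpen (coordSection c f) = U ⊓ V :=
    basicOpen_eq_inf c hηU _ (toFun_coordSection c f) hf0
  have hbV : C.basicOpen (coordSection c f⁻¹) = U ⊓ V := by
    rw [basicOpen_eq_inf c hηV _ (toFun_coordSection c f⁻¹) hf0', inv_inv, inf_comm]
  have hI : IsAffineOpen (U ⊓ V) := hbU ▸ hU.basicOpen _
  have hcover : U ⊔ V = ⊤ := eq_top_iff.2 fun P _ => regularAt_or_inv c f P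
  have hpow : ∀ (W : C.Opens) (hW : IsAffineOpen W) (hη : genericPoint C ∈ W) (y : Γ(C, W))
      (g : FunField c), toFun c W hη y = g → ∀ hB : genericPoint C ∈ C.basicOpen y,
      ∀ a ∈ sec c (C.basicOpen y) hB, ∃ n : ℕ, a * g ^ n ∈ sec c W hη := by
    rintro W hW hη y g hy hB a ⟨s, hs⟩
    letI := (C.presheaf.map (homOfLE (C.basicOpen_le y)).op).hom.toAlgebra
    haveI := hW.isLocalization_basicOpen y
    obtain ⟨⟨b, _, n, rfl⟩, hb⟩ := IsLocalization.surj (Submonoid.powers y) s
    refine ⟨n, b, ?_⟩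
    have h1 := congrArg (toFun c _ hB) hb
    rw [map_mul, map_pow, map_pow, hs, RingHom.algebraMap_toAlgebra, toFun_map, toFun_map, hy] at h1
    exact h1.symm
  have hadj : IntermediateField.adjoin k {f⁻¹} = IntermediateField.adjoin k {f} := by
    refine le_antisymm ?_ ?_ <;> rw [IntermediateField.adjoin_simple_le_iff]
    · exact inv_mem (IntermediateField.mem_adjoin_simple_self k f)
    · simpa using inv_mem (IntermediateField.mem_adjoin_simple_self k f⁻¹)
  have hinj : ∀ g : FunField c, (∀ r, algebraMap k (FunField c) r ≠ g) →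
      Function.Injective (Polynomial.aeval g : k[X] → FunField c) := fun g hg p p' h => by
    refine coordHom_injective c g hg (toFun_injective c _ (generic_mem_regOpen c g) ?_)
    rw [toFun_coordHom, toFun_coordHom, h]
  obtain ⟨hd, hfree⟩ := exists_free (sec c U hηU) f (mem_sec_regOpen c f) (exists_div c hU hηU)
    (hinj f hf) (finite_sec_regOpen c f hf hf0)
  obtain ⟨-, hfree'⟩ := exists_free (sec c V hηV) f⁻¹ (mem_sec_regOpen c f⁻¹) (exists_div c hV hηV)
    (hinj f⁻¹ hf') (finite_sec_regOpen c f⁻¹ hf' hf0')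
  rw [hadj] at hfree'
  let M : Model k :=
    { F := FunField c
      x := f
      x_ne := hf0
      Ap := sec c U hηU
      Am := sec c V hηV
      A₀ := sec c (U ⊓ V) hηI
      x_mem := mem_sec_regOpen c f
      x_inv_mem := mem_sec_regOpen c f⁻¹
      Ap_le := sec_anti c inf_le_left hηI
      Am_le := sec_anti c inf_le_right hηI
      exists_mul_pow_mem := fun a ha => hpow U hU hηU _ f (toFun_coordSection c f)
        (hbU ▸ hηI) a (by simpa only [hbU] using ha)
      exists_mul_inv_pow_mem := fun a ha => hpow V hV hηV _ f⁻¹ (toFun_coordSection c f⁻¹)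
        (hbV ▸ hηI) a (by simpa only [hbV] using ha)
      d := Module.finrank (IntermediateField.adjoin k {f}) (FunField c)
      d_pos := hd
      free_p := hfree
      free_m := hfree'
      inf_eq := eq_bot_iff.2 fun a ha => by
        refine (sec_top c).le ((mem_sec_iff c).2 fun P _ => ?_)
        rcases (hcover.ge (show P ∈ (⊤ : C.Opens) from trivial) : P ∈ U ⊔ V) with hP | hP
        · exact (mem_sec_iff c).1 ha.1 P hP
        · exact (mem_sec_iff c).1 ha.2 P hP }
  haveI := isOpenImmersion_chart c hI hηI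
  have hrange : Set.range ε.1 ⊆ Set.range (chart c hI hηI) := by
    rw [range_chart]
    rintro _ ⟨z, rfl⟩
    rw [Subsingleton.elim z (IsLocalRing.closedPoint k)]
    exact ⟨hfe, hfe'⟩
  let l := IsOpenImmersion.lift (chart c hI hηI) ε.1 hrange
  have hl : (Spec.preimage l).hom.comp (algebraMap k (sec c (U ⊓ V) hηI)) = RingHom.id k := by
    have h : CommRingCat.ofHom (algebraMap k (sec c (U ⊓ V) hηI)) ≫ Spec.preimage l =
        𝟙 (CommRingCat.of k) := Spec.map_injective (by
      rw [Spec.map_comp, Spec.map_preimage, Spec.map_id, ← str, ← chart_str c hI hηI,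
        ← Category.assoc, IsOpenImmersion.lift_fac]
      exact ε.2)
    exact congrArg CommRingCat.Hom.hom h
  refine ⟨{
    model := M
    ιp := chart c hU hηU
    ιm := chart c hV hηV
    ι₀ := chart c hI hηI
    openp := isOpenImmersion_chart c hU hηU
    openm := isOpenImmersion_chart c hV hηV
    open₀ := isOpenImmersion_chart c hI hηI
    ιp_c := chart_str c hU hηU
    ιm_c := chart_str c hV hηV
    ι₀_c := chart_str c hI hηI
    incl_p := chart_incl c hU hI inf_le_left hηI
    incl_m := chart_incl c hV hI inf_le_right hηI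
    cover := ?_
    inter := ?_
    e := { (Spec.preimage l).hom with commutes' := fun r => RingHom.congr_fun hl r }
    e_spec := ?_ }⟩
  · refine Opens.ext ?_
    rw [Opens.coe_sup, Scheme.Hom.coe_opensRange, Scheme.Hom.coe_opensRange, range_chart,
      range_chart, ← Opens.coe_sup, hcover]
  · refine Opens.ext ?_
    rw [Opens.coe_inf, Scheme.Hom.coe_opensRange, Scheme.Hom.coe_opensRange,
      Scheme.Hom.coe_opensRange, range_chart, range_chart, range_chart, Opens.coe_inf]
  · show Spec.map (Spec.preimage l) ≫ chart c hI hηI = ε.1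
    rw [Spec.map_preimage]
    exact IsOpenImmersion.lift_fac _ _ _

end Fermat.Agent.RelPic.Curve
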