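import Fermat.Agent.RelPic.GeomDefs
import Fermat.Agent.RelPic.Curve.Dedekind

/-!
# Points and regular functions of a smooth curve

Functions live in the function field; every point other than the generic one is closed and has a
discrete valuation ring as local ring.
-/

set_option autoImplicit false
set_option linter.style.haveILetI false

noncomputable section

universe u

open CategoryTheory AlgebraicGeometry TopologicalSpace Opposite

namespace Fermat.Agent.RelPic.Curve

variable {k : Type u} [Field k] {C : Scheme.{u}} [IsIntegral C] (c : C ⟶ Spec (CommRingCat.of k))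

/-- The constants in the functions on an open set. -/
def kGamma (W : C.Opens) : k →+* Γ(C, W) :=
  ((Scheme.ΓSpecIso (CommRingCat.of k)).inv ≫ c.appLE ⊤ W le_top).hom

omit [IsIntegral C] in
theorem map_kGamma {W W' : C.Opens} (i : W' ⟶ W) (r : k) :
    C.presheaf.map i.op (kGamma c W r) = kGamma c W' r := by
  show ((Scheme.ΓSpecIso (CommRingCat.of k)).inv ≫ c.appLE ⊤ W le_top ≫ C.presheaf.map i.op) r =
    ((Scheme.ΓSpecIso (CommRingCat.of k)).inv ≫ c.appLE ⊤ W' le_top) r
  rw [Scheme.Hom.appLE_map c le_top i.op]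

/-- The function field of the curve, as an algebra over the base. -/
def FunField (_c : C ⟶ Spec (CommRingCat.of k)) : Type u := C.functionField

instance : Field (FunField c) := inferInstanceAs (Field C.functionField)

/-- The generic point lies in every nonempty open. -/
theorem generic_mem {P : C} {W : C.Opens} (hP : P ∈ W) : genericPoint C ∈ W :=
  ((genericPoint_spec C).specializes trivial).mem_open W.isOpen hP

/-- An open set as seen by the generic point. -/
def toFun (W : C.Opens) (hW : genericPoint C ∈ W) : Γ(C, W) →+* FunField c :=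
  (C.presheaf.germ W (genericPoint C) hW).hom

theorem toFun_injective (W : C.Opens) (hW : genericPoint C ∈ W) :
    Function.Injective (toFun c W hW) :=
  germ_injective_of_isIntegral C _ hW

theorem toFun_map {W W' : C.Opens} (i : W' ⟶ W) (hW' : genericPoint C ∈ W') (s : Γ(C, W)) :
    toFun c W' hW' (C.presheaf.map i.op s) = toFun c W (i.le hW') s :=
  C.presheaf.germ_res_apply i _ hW' s

instance : Algebra k (FunField c) :=
  RingHom.toAlgebra ((toFun c ⊤ trivial).comp (kGamma c ⊤))

theorem toFun_kGamma (W : C.Opens) (hW : genericPoint C ∈ W) (r : k) :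
    toFun c W hW (kGamma c W r) = algebraMap k (FunField c) r := by
  rw [← map_kGamma c (homOfLE (le_top : W ≤ ⊤)) r, toFun_map]
  rfl

/-- The functions regular on an open set. -/
def sec (W : C.Opens) (hW : genericPoint C ∈ W) : Subalgebra k (FunField c) where
  toSubsemiring := (toFun c W hW).range.toSubsemiring
  algebraMap_mem' r := ⟨kGamma c W r, toFun_kGamma c W hW r⟩

theorem sec_anti {W W' : C.Opens} (h : W' ≤ W) (hW' : genericPoint C ∈ W') :
    sec c W (h hW') ≤ sec c W' hW' := by
  rintro f ⟨s, rfl⟩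
  exact ⟨C.presheaf.map (homOfLE h).op s, toFun_map c _ hW' s⟩

/-- Regularity of a function at a point. -/
def RegularAt (f : FunField c) (P : C) : Prop :=
  ∃ (W : C.Opens) (hP : P ∈ W), f ∈ sec c W (generic_mem hP)

theorem regularAt_iff_stalk {f : FunField c} {P : C} :
    RegularAt c f P ↔
      ∃ s : C.presheaf.stalk P, algebraMap (C.presheaf.stalk P) C.functionField s = f := by
  constructor
  · rintro ⟨W, hP, s, rfl⟩
    refine ⟨C.presheaf.germ W P hP s, ?_⟩
    haveI : Nonempty W := ⟨⟨P, hP⟩⟩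
    exact Scheme.algebraMap_germ_eq_germToFunctionField C hP s
  · rintro ⟨s, rfl⟩
    obtain ⟨W, hP, t, rfl⟩ := C.presheaf.exists_germ_eq (x := P) s
    refine ⟨W, hP, t, ?_⟩
    haveI : Nonempty W := ⟨⟨P, hP⟩⟩
    exact (Scheme.algebraMap_germ_eq_germToFunctionField C hP t).symm

/-- Regularity on an open set is pointwise. -/
theorem mem_sec_iff {W : C.Opens} {hW : genericPoint C ∈ W} {f : FunField c} :
    f ∈ sec c W hW ↔ ∀ P ∈ W, RegularAt c f P := by
  refine ⟨fun h P hP => ⟨W, hP, h⟩, fun h => ?_⟩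
  choose V hV s hs using fun P : W => h P P.2
  set U : W → C.Opens := fun P => V P ⊓ W
  have hU : ∀ P : W, genericPoint C ∈ U P := fun P => generic_mem ⟨hV P, P.2⟩
  let sf : ∀ P : W, Γ(C, U P) := fun P => C.presheaf.map (homOfLE inf_le_left).op (s P)
  have hsf : ∀ P : W, toFun c (U P) (hU P) (sf P) = f := fun P => by
    rw [toFun_map]; exact hs P
  obtain ⟨t, ht, -⟩ := C.sheaf.existsUnique_gluing' U W (fun P => homOfLE inf_le_right)
    (fun P hP => Opens.mem_iSup.2 ⟨⟨P, hP⟩, hV ⟨P, hP⟩, hP⟩) sf fun P Q => by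
      have hη : genericPoint C ∈ U P ⊓ U Q := ⟨hU P, hU Q⟩
      refine toFun_injective c _ hη ?_
      exact ((toFun_map c _ hη _).trans (hsf P)).trans ((toFun_map c _ hη _).trans (hsf Q)).symm
  refine ⟨t, ?_⟩
  obtain ⟨P, hP⟩ : ∃ P, P ∈ W := ⟨_, hW⟩
  rw [← hsf ⟨P, hP⟩, ← toFun_map c (homOfLE (inf_le_right : U ⟨P, hP⟩ ≤ W)) (hU ⟨P, hP⟩) t]
  exact congrArg _ (ht ⟨P, hP⟩)

/-- The rings of functions on affine opens, as algebras over the base. -/
@[reducible] def gammaAlgebra (W : C.Opens) : Algebra k Γ(C, W) := (kGamma c W).toAlgebra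

section Smooth

variable [SmoothOfRelativeDimension 1 c]

omit [IsIntegral C] in
theorem finiteType_gamma {W : C.Opens} (hW : IsAffineOpen W) :
    letI := gammaAlgebra c W
    Algebra.FiniteType k Γ(C, W) := by
  haveI : Smooth c := SmoothOfRelativeDimension.smooth 1 c
  have h := c.finiteType_appLE (isAffineOpen_top _) hW (le_top (a := W))
  exact RingHom.FiniteType.comp h (RingHom.FiniteType.of_surjective _
    (Scheme.ΓSpecIso (CommRingCat.of k)).commRingCatIsoToRingEquiv.symm.surjective)

omit [IsIntegral C] in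
theorem locSmoothOne_gamma {W : C.Opens} (hW : IsAffineOpen W) :
    letI := gammaAlgebra c W
    LocSmoothOne k Γ(C, W) := by
  letI := gammaAlgebra c W
  intro m hm
  obtain ⟨s, hs, hP⟩ := HasRingHomProperty.appLE (@SmoothOfRelativeDimension.{u} 1) c inferInstance
    ⟨⊤, isAffineOpen_top _⟩ ⟨W, hW⟩ (le_top (a := W))
  obtain ⟨g, hgs, hg⟩ := Set.not_subset.1 fun h : s ⊆ (m : Set Γ(C, W)) =>
    hm.ne_top (top_le_iff.1 (hs ▸ Ideal.span_le.2 h))
  refine ⟨g, hg, ?_⟩
  have h := RingHom.isStandardSmoothOfRelativeDimension_respectsIso.2 _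
    (Scheme.ΓSpecIso (CommRingCat.of k)).commRingCatIsoToRingEquiv.symm (hP g hgs)
  rw [← RingHom.isStandardSmoothOfRelativeDimension_algebraMap]
  exact h

variable [IsAlgClosed k]

include c in
theorem isDedekindDomain_gamma {W : C.Opens} (hW : IsAffineOpen W) (hne : genericPoint C ∈ W) :
    IsDedekindDomain Γ(C, W) := by
  letI := gammaAlgebra c W
  haveI : Nonempty W := ⟨⟨_, hne⟩⟩
  haveI := finiteType_gamma c hW
  exact isDedekindDomain_of_locSmoothOne (locSmoothOne_gamma c hW)

theorem primeIdealOf_ne_bot {P : C} (hP : P ≠ genericPoint C) {W : C.Opens} (hW : IsAffineOpen W)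
    (hPW : P ∈ W) : (hW.primeIdealOf ⟨P, hPW⟩).asIdeal ≠ ⊥ := by
  intro h
  haveI : Nonempty W := ⟨⟨_, hPW⟩⟩
  have e : hW.primeIdealOf ⟨P, hPW⟩ = hW.primeIdealOf ⟨genericPoint C, generic_mem hPW⟩ := by
    rw [hW.primeIdealOf_genericPoint, genericPoint_eq_bot_of_affine]
    exact PrimeSpectrum.ext h
  refine hP ?_
  exact (hW.fromSpec_primeIdealOf ⟨P, hPW⟩).symm.trans
    ((congrArg _ e).trans (hW.fromSpec_primeIdealOf _))

include c in
/-- A point other than the generic one is closed. -/
theorem isClosed_singleton {P : C} (hP : P ≠ genericPoint C) : IsClosed {P} := by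
  refine closure_subset_iff_isClosed.1 fun Q hQ => ?_
  have hPQ : P ⤳ Q := specializes_iff_mem_closure.2 hQ
  obtain ⟨_, ⟨W, hW, rfl⟩, hQW, -⟩ :=
    C.isBasis_affineOpens.exists_subset_of_mem_open (Set.mem_univ Q) isOpen_univ
  have hPW : P ∈ W := hPQ.mem_open W.isOpen hQW
  haveI := isDedekindDomain_gamma c hW (generic_mem hPW)
  have hle : hW.primeIdealOf ⟨P, hPW⟩ ≤ hW.primeIdealOf ⟨Q, hQW⟩ := by
    rw [PrimeSpectrum.le_iff_specializes]
    exact ((subtype_specializes_iff ⟨P, hPW⟩ ⟨Q, hQW⟩).2 hPQ).map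
      hW.isoSpec.hom.continuous
  have hmax := (hW.primeIdealOf ⟨P, hPW⟩).isPrime.isMaximal (primeIdealOf_ne_bot hP hW hPW)
  have e : hW.primeIdealOf ⟨P, hPW⟩ = hW.primeIdealOf ⟨Q, hQW⟩ :=
    PrimeSpectrum.ext (hmax.eq_of_le (hW.primeIdealOf ⟨Q, hQW⟩).isPrime.ne_top hle)
  exact (hW.fromSpec_primeIdealOf ⟨Q, hQW⟩).symm.trans
    ((congrArg _ e.symm).trans (hW.fromSpec_primeIdealOf _))

include c in
theorem isDiscreteValuationRing_stalk {P : C} (hP : P ≠ genericPoint C) :
    IsDiscreteValuationRing (C.presheaf.stalk P) := by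
  obtain ⟨_, ⟨W, hW, rfl⟩, hPW, -⟩ :=
    C.isBasis_affineOpens.exists_subset_of_mem_open (Set.mem_univ P) isOpen_univ
  haveI : Nonempty W := ⟨⟨_, hPW⟩⟩
  haveI := isDedekindDomain_gamma c hW (generic_mem hPW)
  letI := C.presheaf.algebra_section_stalk (U := W) ⟨P, hPW⟩
  haveI := hW.isLocalization_stalk ⟨P, hPW⟩
  exact IsLocalization.AtPrime.isDiscreteValuationRing_of_dedekind_domain Γ(C, W)
    (primeIdealOf_ne_bot hP hW hPW) (C.presheaf.stalk P)

/-- A function or its inverse is regular at every point. -/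
theorem regularAt_or_inv (f : FunField c) (P : C) : RegularAt c f P ∨ RegularAt c f⁻¹ P := by
  by_cases hP : P = genericPoint C
  · subst hP
    obtain ⟨W, hW, t, ht⟩ :=
      C.presheaf.exists_germ_eq (x := genericPoint C) (f : C.presheaf.stalk (genericPoint C))
    exact Or.inl ⟨W, hW, t, ht⟩
  · haveI := isDiscreteValuationRing_stalk c hP
    rcases ValuationRing.isInteger_or_isInteger (C.presheaf.stalk P) (K := C.functionField) f with
      h | h
    · exact Or.inl ((regularAt_iff_stalk c).2 h)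
    · exact Or.inr ((regularAt_iff_stalk c).2 h)

end Smooth

end Fermat.Agent.RelPic.Curve
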